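import Fermat.Agent.S56.V.Defs

/-!
# S56 / V-COC  (Mathlib only).  The cocycle computation on the Borel subgroup.

`E = E₁₂, H = diag(1,-1), F = E₂₁`.  Twisted action: `u_x•E = E`, `u_x•H = H - 2x E`, `u_x•F = F + x H - x² E`;
`t = diag(a,d)`: `t•E = a² E`, `t•H = a d H`, `t•F = d² F`; `t u_x t⁻¹ = u_{αx}`, `α = a/d`, `δ = a d`.

PAPER PROOF.  `f` vanishes on `T`, so `f(t u t⁻¹) = t • f(u)`.  Write `f(u_x) = A(x) E + B(x) H + C(x) F` (`x ∈ X`).  Cocycle relation on `P`: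
 `C(x+y) = C x + C y`;  `B(x+y) = B x + B y + x C y`;  `A(x+y) = A x + A y - 2 x B y - x² C y`.
 (a) symmetry of `B(x+y)`: `x C y = y C x`, so `C x = κ x`.  Then `B x = κ x²/2 + B₀ x`, `B₀` additive; symmetry of `A(x+y)`: `x B₀ y = y B₀ x`, `B₀ x = κ₁ x`.
 (b) `κ = 0`.  If `p = 3`: compute `0 = A(3x) = 3 A x - 8 κ x³ - 6 κ₁ x²`, so `κ x³ = 0`.  If `p ≥ 5` and `κ ≠ 0`: equivariance `C(αx) = d² C x` gives
     `a = d³` on `T`; on `T₁ = {ad = 1}`: `d⁴ = 1`, `α = d² = ±1`, so `#α(T₁) ≤ 2`, `q ≤ 5`, `q = p = 5`, `X = 𝔽₅ x₀`, `α(t) ∈ 𝔽₅ˣ` for all `t ∈ T`, `d⁸ = α⁴ = 1`,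
     `δ² = d⁸ = 1` for all `t ∈ T`: contradicts `hdet5`.
 (c) if `κ₁ ≠ 0`: `B(αx) = a d B x` gives `d² = 1` on `T`, so `F` is `T`-fixed; replace `f` by `f - κ₁ ∂F` (`∂F(u_x) = x H - x² E`, `∂F = 0` on `T`).  So wlog `κ₁ = 0`.
 (d) now `f(u_x) = A(x) E`, `A` additive, `A(α x) = a² A x = α δ A x`.  `R := 𝔽_p[α(T₁)] ⊆ k` is a finite subfield, `X` is an `R`-vector space,
     `#R ≥ #α(T₁) + 1 ≥ (q+1)/2 > √q`, so `X = R x₀`.  `{β ∈ k | β X ⊆ X ∧ ∀ x ∈ X, A(βx) = β A x}` is a subring containing `α(T₁)` (there `δ = 1`), so `A` is `R`-linear.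
     For `t ∈ T` arbitrary `α(t) x₀ ∈ X = R x₀`, so `α(t) ∈ R` and `α A x = A(αx) = α δ A x`; take `t` with `δ ≠ 1`: `A = 0`.
-/

set_option autoImplicit false

namespace Fermat.Agent.S56.V

open Matrix

namespace CocAux

variable {k : Type} [Field k]

/-- a subring of a finite field is closed under inverses -/
theorem inv_mem_subring [Finite k] (S : Subring k) {b : k} (hb : b ∈ S) : b⁻¹ ∈ S := by
  classical
  have := Fintype.ofFinite k
  by_cases h0 : b = 0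
  · simp [h0, S.zero_mem]
  · have h1 : b ^ (Fintype.card k - 1) = 1 := FiniteField.pow_card_sub_one_eq_one b h0
    have h2 : 2 ≤ Fintype.card k := Fintype.one_lt_card
    have h3 : b⁻¹ = b ^ (Fintype.card k - 2) := by
      have : b * b ^ (Fintype.card k - 2) = 1 := by
        rw [← pow_succ', ← h1]; congr 1; omega
      exact inv_eq_of_mul_eq_one_right this
    rw [h3]; exact S.pow_mem hb _

/-- the ring of multipliers of an additive function on `X` -/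
def multRing (X : AddSubgroup k) (A : k → k) (hA : ∀ x ∈ X, ∀ y ∈ X, A (x + y) = A x + A y) :
    Subring k where
  carrier := {b | (∀ x ∈ X, b * x ∈ X) ∧ ∀ x ∈ X, A (b * x) = b * A x}
  mul_mem' := by
    rintro a b ⟨ha1, ha2⟩ ⟨hb1, hb2⟩
    refine ⟨fun x hx => ?_, fun x hx => ?_⟩
    · rw [mul_assoc]; exact ha1 _ (hb1 _ hx)
    · rw [mul_assoc, ha2 _ (hb1 _ hx), hb2 _ hx, mul_assoc]
  one_mem' := ⟨fun x hx => by simpa using hx, fun x _ => by simp⟩
  add_mem' := by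
    rintro a b ⟨ha1, ha2⟩ ⟨hb1, hb2⟩
    refine ⟨fun x hx => ?_, fun x hx => ?_⟩
    · rw [add_mul]; exact X.add_mem (ha1 _ hx) (hb1 _ hx)
    · rw [add_mul, hA _ (ha1 _ hx) _ (hb1 _ hx), ha2 _ hx, hb2 _ hx, add_mul]
  zero_mem' := by
    have h0 : A 0 = 0 := by
      have := hA 0 X.zero_mem 0 X.zero_mem
      rw [add_zero] at this
      exact (left_eq_add.mp this)
    exact ⟨fun x _ => by simp, fun x _ => by simp [h0]⟩
  neg_mem' := by
    rintro a ⟨ha1, ha2⟩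
    have h0 : A 0 = 0 := by
      have := hA 0 X.zero_mem 0 X.zero_mem
      rw [add_zero] at this
      exact (left_eq_add.mp this)
    refine ⟨fun x hx => ?_, fun x hx => ?_⟩
    · rw [neg_mul]; exact X.neg_mem (ha1 _ hx)
    · have := hA _ (ha1 _ hx) _ (X.neg_mem (ha1 _ hx))
      rw [add_neg_cancel, h0, ha2 _ hx] at this
      rw [neg_mul, neg_mul]
      linear_combination -this

theorem additive_zero [Finite k] (X : AddSubgroup k) (x₀ : k) (hx₀ : x₀ ∈ X) (hx₀0 : x₀ ≠ 0)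
    (D : Set (k × k)) (hD : ∀ t ∈ D, t.1 ≠ 0 ∧ t.2 ≠ 0)
    (hDX : ∀ t ∈ D, ∀ x ∈ X, t.1 / t.2 * x ∈ X)
    (A : k → k) (hA : ∀ x ∈ X, ∀ y ∈ X, A (x + y) = A x + A y)
    (hAt : ∀ t ∈ D, ∀ x ∈ X, A (t.1 / t.2 * x) = t.1 ^ 2 * A x)
    (hdet : ∃ t ∈ D, t.1 * t.2 ≠ 1)
    (hcount : Nat.card X - 1 ≤ 2 * Nat.card {r : k | ∃ t ∈ D, t.1 * t.2 = 1 ∧ r = t.1 / t.2}) :
    ∀ x ∈ X, A x = 0 := by
  classical
  set S := multRing X A hA with hS
  set Rt : Set k := {r : k | ∃ t ∈ D, t.1 * t.2 = 1 ∧ r = t.1 / t.2} with hRt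
  have hmemS : ∀ b : k, b ∈ S ↔ (∀ x ∈ X, b * x ∈ X) ∧ ∀ x ∈ X, A (b * x) = b * A x := fun b => Iff.rfl
  -- the ratio set lies in `S \ {0}`
  have hRS : ∀ r ∈ Rt, r ∈ S ∧ r ≠ 0 := by
    rintro r ⟨t, ht, h1, rfl⟩
    obtain ⟨ha, hd⟩ := hD t ht
    refine ⟨(hmemS _).2 ⟨hDX t ht, fun x hx => ?_⟩, div_ne_zero ha hd⟩
    rw [hAt t ht x hx]
    have : t.1 / t.2 = t.1 ^ 2 := by
      rw [div_eq_iff hd]
      linear_combination (-t.1) * h1
    rw [this]
  -- counting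
  have hc1 : Nat.card Rt + 1 ≤ Nat.card S := by
    have hsub : insert (0 : k) Rt ⊆ (S : Set k) := by
      intro r hr
      rcases hr with rfl | hr
      · exact S.zero_mem
      · exact (hRS r hr).1
    have h0 : (0 : k) ∉ Rt := fun h => (hRS 0 h).2 rfl
    have h1 : Nat.card (insert (0 : k) Rt : Set k) = Nat.card Rt + 1 := by
      rw [Nat.card_coe_set_eq, Nat.card_coe_set_eq, Set.ncard_insert_of_notMem h0 (Set.toFinite _)]
    rw [← h1]
    exact Nat.card_mono (Set.toFinite _) hsub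
  -- `X = S x₀`
  have hXS : ∀ x ∈ X, ∃ s ∈ S, x = s * x₀ := by
    by_contra hcon
    push Not at hcon
    obtain ⟨x₁, hx₁, hne⟩ := hcon
    have hinj : Function.Injective (fun st : S × S => (⟨st.1 * x₀ + st.2 * x₁,
        X.add_mem (((hmemS _).1 st.1.2).1 _ hx₀) (((hmemS _).1 st.2.2).1 _ hx₁)⟩ : X)) := by
      rintro ⟨s, s'⟩ ⟨r, r'⟩ h
      have h' : (s : k) * x₀ + s' * x₁ = r * x₀ + r' * x₁ := congrArg Subtype.val h
      by_cases hs : (s' : k) = r'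
      · have : (s : k) = r := by
          rw [hs] at h'
          exact mul_right_cancel₀ hx₀0 (add_right_cancel h')
        exact Prod.ext (Subtype.ext this) (Subtype.ext hs)
      · exfalso
        have hsub : (s' : k) - r' ≠ 0 := sub_ne_zero.mpr hs
        refine hne (((s' : k) - r')⁻¹ * (r - s))
          (S.mul_mem (inv_mem_subring S (S.sub_mem s'.2 r'.2)) (S.sub_mem r.2 s.2)) ?_
        field_simp
        linear_combination h'
    have hle := Nat.card_le_card_of_injective _ hinj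
    rw [Nat.card_prod] at hle
    have h2 : 2 ≤ Nat.card S := by
      have : Nontrivial S := inferInstance
      exact Finite.one_lt_card
    have : Nat.card X ≤ 2 * Nat.card Rt + 1 := by omega
    nlinarith
  obtain ⟨t, ht, hδ⟩ := hdet
  obtain ⟨ha, hd⟩ := hD t ht
  obtain ⟨s, hs, hs'⟩ := hXS _ (hDX t ht x₀ hx₀)
  have hαS : t.1 / t.2 ∈ S := by
    rw [mul_right_cancel₀ hx₀0 hs']; exact hs
  intro x hx
  have h1 := ((hmemS _).1 hαS).2 x hx
  rw [hAt t ht x hx] at h1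
  have h2 : t.1 * (t.1 * t.2 - 1) * A x = 0 := by
    field_simp at h1
    linear_combination t.1 * h1
  rcases mul_eq_zero.mp h2 with h3 | h3
  · rcases mul_eq_zero.mp h3 with h4 | h4
    · exact absurd h4 ha
    · exact absurd (sub_eq_zero.mp h4) hδ
  · exact h3

theorem abs_coc [Finite k] {p : ℕ} [Fact p.Prime] [CharP k p] (hp2 : p ≠ 2)
    (X : AddSubgroup k) (D : Set (k × k)) (hD : ∀ t ∈ D, t.1 ≠ 0 ∧ t.2 ≠ 0)
    (hDX : ∀ t ∈ D, ∀ x ∈ X, t.1 / t.2 * x ∈ X)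
    (A B C : k → k)
    (hC : ∀ x ∈ X, ∀ y ∈ X, C (x + y) = C x + C y)
    (hB : ∀ x ∈ X, ∀ y ∈ X, B (x + y) = B x + B y + x * C y)
    (hA : ∀ x ∈ X, ∀ y ∈ X, A (x + y) = A x + A y - 2 * x * B y - x ^ 2 * C y)
    (hCt : ∀ t ∈ D, ∀ x ∈ X, C (t.1 / t.2 * x) = t.2 ^ 2 * C x)
    (hBt : ∀ t ∈ D, ∀ x ∈ X, B (t.1 / t.2 * x) = t.1 * t.2 * B x)
    (hAt : ∀ t ∈ D, ∀ x ∈ X, A (t.1 / t.2 * x) = t.1 ^ 2 * A x)
    (hdet : ∃ t ∈ D, t.1 * t.2 ≠ 1)
    (hdet5 : p = 5 → ∃ t ∈ D, (t.1 * t.2) ^ 2 ≠ 1)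
    (hcount : Nat.card X - 1 ≤ 2 * Nat.card {r : k | ∃ t ∈ D, t.1 * t.2 = 1 ∧ r = t.1 / t.2}) :
    ∃ κ : k, ∀ x ∈ X, C x = 0 ∧ B x = κ * x ∧ A x = - κ * x ^ 2 := by
  classical
  have hpp : p.Prime := Fact.out
  have h2 : (2 : k) ≠ 0 := by
    intro h
    have : ((2 : ℕ) : k) = 0 := by exact_mod_cast h
    rw [CharP.cast_eq_zero_iff k p] at this
    exact hp2 ((Nat.prime_dvd_prime_iff_eq hpp Nat.prime_two).mp this)
  have hC0 : C 0 = 0 := by
    have := hC 0 X.zero_mem 0 X.zero_mem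
    rw [add_zero] at this
    exact left_eq_add.mp this
  have hB0 : B 0 = 0 := by
    have := hB 0 X.zero_mem 0 X.zero_mem
    rw [add_zero, zero_mul, add_zero] at this
    exact left_eq_add.mp this
  have hA0 : A 0 = 0 := by
    have := hA 0 X.zero_mem 0 X.zero_mem
    rw [add_zero] at this
    linear_combination -this
  by_cases hX : ∀ x ∈ X, x = 0
  · refine ⟨0, fun x hx => ?_⟩
    rw [hX x hx]; simp [hC0, hB0, hA0]
  push Not at hX
  obtain ⟨x₀, hx₀, hx₀0⟩ := hX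
  -- (a)
  have hsymC : ∀ x ∈ X, ∀ y ∈ X, x * C y = y * C x := by
    intro x hx y hy
    have h1 := hB x hx y hy
    have h2 := hB y hy x hx
    rw [add_comm y x] at h2
    linear_combination h2 - h1
  obtain ⟨κ, hκ⟩ : ∃ κ : k, κ * x₀ = C x₀ := ⟨C x₀ / x₀, div_mul_cancel₀ _ hx₀0⟩
  have hCκ : ∀ x ∈ X, C x = κ * x := by
    intro x hx
    have := hsymC x₀ hx₀ x hx
    apply mul_left_cancel₀ hx₀0
    linear_combination this - x * hκ
  have hsymB : ∀ x ∈ X, ∀ y ∈ X, 2 * (y * B x - x * B y) = κ * x * y * (x - y) := by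
    intro x hx y hy
    have h1 := hA x hx y hy
    have h2 := hA y hy x hx
    rw [add_comm y x, hCκ x hx] at h2
    rw [hCκ y hy] at h1
    linear_combination h2 - h1
  obtain ⟨h, hh⟩ : ∃ h : k, 2 * h = 1 := ⟨2⁻¹, mul_inv_cancel₀ h2⟩
  obtain ⟨κ₁, hκ₁⟩ : ∃ κ₁ : k, κ₁ * x₀ = B x₀ - κ * x₀ ^ 2 * h :=
    ⟨(B x₀ - κ * x₀ ^ 2 * h) / x₀, div_mul_cancel₀ _ hx₀0⟩
  have hBκ : ∀ x ∈ X, B x = κ * x ^ 2 * h + κ₁ * x := by
    intro x hx
    have := hsymB x hx x₀ hx₀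
    apply mul_left_cancel₀ hx₀0
    linear_combination h * this - x * hκ₁ - (x₀ * B x - x * B x₀) * hh
  -- (b)
  have hκ0 : κ = 0 := by
    by_contra hκne
    by_cases hp3 : p = 3
    · have h3 : (3 : k) = 0 := by
        have : ((3 : ℕ) : k) = 0 := by rw [CharP.cast_eq_zero_iff k p, hp3]
        exact_mod_cast this
      have e1 := hA x₀ hx₀ x₀ hx₀
      have e2 := hA (x₀ + x₀) (X.add_mem hx₀ hx₀) x₀ hx₀
      have e3 : x₀ + x₀ + x₀ = 0 := by linear_combination x₀ * h3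
      rw [e3, hA0, e1, hCκ x₀ hx₀] at e2
      have e4 : κ * x₀ ^ 3 = 0 := by
        linear_combination -e2 + (2 * κ * x₀ ^ 3 - A x₀ + 2 * x₀ * B x₀) * h3
      rcases mul_eq_zero.mp e4 with h | h
      · exact hκne h
      · exact hx₀0 (pow_eq_zero_iff (by norm_num) |>.mp h)
    · have hα : ∀ t ∈ D, t.1 / t.2 = t.2 ^ 2 := by
        intro t ht
        have := hCt t ht x₀ hx₀
        rw [hCκ _ (hDX t ht x₀ hx₀), hCκ x₀ hx₀] at this
        apply mul_right_cancel₀ (mul_ne_zero hκne hx₀0)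
        linear_combination this
      have ha3 : ∀ t ∈ D, t.1 = t.2 ^ 3 := by
        intro t ht
        have e := hα t ht
        rw [div_eq_iff (hD t ht).2] at e
        linear_combination e
      have hRt : {r : k | ∃ t ∈ D, t.1 * t.2 = 1 ∧ r = t.1 / t.2} ⊆ {1, -1} := by
        rintro r ⟨t, ht, h1, rfl⟩
        have : (t.1 / t.2) * (t.1 / t.2) = 1 := by
          rw [hα t ht]
          rw [ha3 t ht] at h1
          linear_combination h1
        rcases mul_self_eq_one_iff.mp this with h | h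
        · rw [h]; simp
        · rw [h]; simp
      have hcard2 : Nat.card {r : k | ∃ t ∈ D, t.1 * t.2 = 1 ∧ r = t.1 / t.2} ≤ 2 := by
        refine (Nat.card_mono (Set.toFinite _) hRt).trans ?_
        rw [Nat.card_coe_set_eq]
        exact (Set.ncard_insert_le _ _).trans (by simp)
      have hX5 : Nat.card X ≤ 5 := by omega
      have hmem : ∀ n : Fin p, ((n : ℕ) : k) * x₀ ∈ X := by
        intro n
        rw [← nsmul_eq_mul]
        exact X.nsmul_mem hx₀ _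
      have hinj : Function.Injective (fun n : Fin p => (⟨((n : ℕ) : k) * x₀, hmem n⟩ : X)) := by
        intro n m hnm
        have h1 : ((n : ℕ) : k) * x₀ = ((m : ℕ) : k) * x₀ := congrArg Subtype.val hnm
        have h2 := mul_right_cancel₀ hx₀0 h1
        rw [CharP.natCast_eq_natCast k p] at h2
        exact Fin.ext (h2.eq_of_lt_of_lt n.2 m.2)
      have hpX : p ≤ Nat.card X := by
        have := Nat.card_le_card_of_injective _ hinj
        simpa using this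
      have hp5 : p = 5 := by
        have h5 : p ≤ 5 := hpX.trans hX5
        interval_cases p
        · exact absurd hpp (by norm_num)
        · exact absurd hpp (by norm_num)
        · exact absurd rfl hp2
        · exact absurd rfl hp3
        · exact absurd hpp (by norm_num)
        · rfl
      have hbij := hinj.bijective_of_nat_card_le (by simpa [hp5] using hX5)
      obtain ⟨t, ht, hδ⟩ := hdet5 hp5
      obtain ⟨ha, hd⟩ := hD t ht
      obtain ⟨n, hn⟩ := hbij.2 ⟨_, hDX t ht x₀ hx₀⟩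
      have hn' : ((n : ℕ) : k) * x₀ = t.1 / t.2 * x₀ := congrArg Subtype.val hn
      have hn2 : t.1 / t.2 = ((n : ℕ) : k) := (mul_right_cancel₀ hx₀0 hn').symm
      have h5 : (t.1 / t.2) ^ 5 = t.1 / t.2 := by
        rw [hn2]
        generalize (n : ℕ) = n'
        have := map_natCast (frobenius k p) n'
        rw [frobenius_def, hp5] at this
        exact this
      have h4 : (t.1 / t.2) ^ 4 = 1 := by
        apply mul_left_cancel₀ (div_ne_zero ha hd)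
        linear_combination h5
      apply hδ
      rw [hα t ht] at h4
      rw [ha3 t ht]
      linear_combination h4
  have hC' : ∀ x ∈ X, C x = 0 := by intro x hx; rw [hCκ x hx, hκ0, zero_mul]
  have hB' : ∀ x ∈ X, B x = κ₁ * x := by intro x hx; rw [hBκ x hx, hκ0]; ring
  refine ⟨κ₁, fun x hx => ⟨hC' x hx, hB' x hx, ?_⟩⟩
  have := additive_zero X x₀ hx₀ hx₀0 D hD hDX (fun x => A x + κ₁ * x ^ 2) ?_ ?_ hdet hcount x hx
  · linear_combination this
  · intro x hx y hy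
    rw [hA x hx y hy, hB' y hy, hC' y hy]; ring
  · intro t ht x hx
    rw [hAt t ht x hx]
    obtain ⟨ha, hd⟩ := hD t ht
    by_cases hk : κ₁ = 0
    · rw [hk]; ring
    · have := hBt t ht x₀ hx₀
      rw [hB' _ (hDX t ht x₀ hx₀), hB' x₀ hx₀] at this
      have e : t.1 / t.2 = t.1 * t.2 :=
        mul_right_cancel₀ (mul_ne_zero hk hx₀0) (by linear_combination this)
      have e2 : (t.1 / t.2) ^ 2 = t.1 ^ 2 := by
        calc (t.1 / t.2) ^ 2 = (t.1 / t.2) * (t.1 * t.2) := by rw [sq]; congr 1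
          _ = t.1 ^ 2 := by field_simp
      rw [mul_pow, e2]; ring

/-- `u_x` as an element of `GL₂(k)` -/
def uGL (x : k) : GL (Fin 2) k where
  val := uMat x
  inv := uMat (-x)
  val_inv := by
    ext i j; fin_cases i <;> fin_cases j <;> simp [uMat, Matrix.mul_apply, Fin.sum_univ_two]
  inv_val := by
    ext i j; fin_cases i <;> fin_cases j <;> simp [uMat, Matrix.mul_apply, Fin.sum_univ_two]

/-- `diag(a,d)` as an element of `GL₂(k)` -/
def dGL (a d : k) (ha : a ≠ 0) (hd : d ≠ 0) : GL (Fin 2) k where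
  val := !![a, 0; 0, d]
  inv := !![a⁻¹, 0; 0, d⁻¹]
  val_inv := by
    ext i j; fin_cases i <;> fin_cases j <;> simp [Matrix.mul_apply, Fin.sum_univ_two, ha, hd]
  inv_val := by
    ext i j; fin_cases i <;> fin_cases j <;> simp [Matrix.mul_apply, Fin.sum_univ_two, ha, hd]

theorem uGL_add (x y : k) : uGL (x + y) = uGL x * uGL y := by
  apply Units.ext
  change uMat (x + y) = uMat x * uMat y
  ext i j; fin_cases i <;> fin_cases j <;> simp [uMat, Matrix.mul_apply, Fin.sum_univ_two, add_comm]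

theorem uGL_zero : uGL (0 : k) = 1 := by
  apply Units.ext
  change uMat (0 : k) = 1
  ext i j; fin_cases i <;> fin_cases j <;> simp [uMat]

theorem uGL_neg (x : k) : uGL (-x) = (uGL x)⁻¹ := by
  apply Units.ext
  rfl

theorem dGL_mul_uGL (a d : k) (ha : a ≠ 0) (hd : d ≠ 0) (x : k) :
    dGL a d ha hd * uGL x = uGL (a / d * x) * dGL a d ha hd := by
  apply Units.ext
  change !![a, 0; 0, d] * uMat x = uMat (a / d * x) * !![a, 0; 0, d]
  ext i j; fin_cases i <;> fin_cases j <;> simp [uMat, Matrix.mul_apply, Fin.sum_univ_two]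
  field_simp

theorem tw_uGL (x : k) (m : Matrix (Fin 2) (Fin 2) k) :
    tw (uGL x) m = !![m 0 0 + x * m 1 0, m 0 1 - x * m 0 0 + x * m 1 1 - x ^ 2 * m 1 0;
      m 1 0, m 1 1 - x * m 1 0] := by
  have h1 : ((uGL x : GL (Fin 2) k) : Matrix (Fin 2) (Fin 2) k) = uMat x := rfl
  have h2 : (((uGL x)⁻¹ : GL (Fin 2) k) : Matrix (Fin 2) (Fin 2) k) = uMat (-x) := rfl
  unfold tw
  rw [h1, h2]
  obtain ⟨m₁, m₂, m₃, m₄, rfl⟩ : ∃ m₁ m₂ m₃ m₄, m = !![m₁, m₂; m₃, m₄] :=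
    ⟨_, _, _, _, Matrix.eta_fin_two m⟩
  ext i j
  fin_cases i <;> fin_cases j <;>
    simp [uMat, Matrix.det_fin_two] <;> ring

theorem tw_dGL (a d : k) (ha : a ≠ 0) (hd : d ≠ 0) (m : Matrix (Fin 2) (Fin 2) k) :
    tw (dGL a d ha hd) m = !![a * d * m 0 0, a ^ 2 * m 0 1; d ^ 2 * m 1 0, a * d * m 1 1] := by
  have h1 : ((dGL a d ha hd : GL (Fin 2) k) : Matrix (Fin 2) (Fin 2) k) = !![a, 0; 0, d] := rfl
  have h2 : (((dGL a d ha hd)⁻¹ : GL (Fin 2) k) : Matrix (Fin 2) (Fin 2) k) =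
    !![a⁻¹, 0; 0, d⁻¹] := rfl
  unfold tw
  rw [h1, h2]
  obtain ⟨m₁, m₂, m₃, m₄, rfl⟩ : ∃ m₁ m₂ m₃ m₄, m = !![m₁, m₂; m₃, m₄] :=
    ⟨_, _, _, _, Matrix.eta_fin_two m⟩
  ext i j
  fin_cases i <;> fin_cases j <;>
    simp [Matrix.det_fin_two, ha, hd] <;> field_simp

theorem tw_zero (g : GL (Fin 2) k) : tw g 0 = 0 := by
  simp [tw]

theorem eq_dGL (t : GL (Fin 2) k) (h01 : (t : Matrix (Fin 2) (Fin 2) k) 0 1 = 0)
    (h10 : (t : Matrix (Fin 2) (Fin 2) k) 1 0 = 0) :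
    ∃ (ha : (t : Matrix (Fin 2) (Fin 2) k) 0 0 ≠ 0) (hd : (t : Matrix (Fin 2) (Fin 2) k) 1 1 ≠ 0),
      t = dGL _ _ ha hd := by
  have hdet : IsUnit (t : Matrix (Fin 2) (Fin 2) k).det :=
    (Matrix.isUnit_iff_isUnit_det _).mp t.isUnit
  rw [Matrix.det_fin_two, h01, h10, mul_zero, sub_zero] at hdet
  have hne := hdet.ne_zero
  refine ⟨left_ne_zero_of_mul hne, right_ne_zero_of_mul hne, ?_⟩
  apply Units.ext
  change (t : Matrix (Fin 2) (Fin 2) k) = !![_, 0; 0, _]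
  ext i j; fin_cases i <;> fin_cases j <;> simp [h01, h10]

end CocAux

open CocAux in
/-- On the unipotent part a cocycle which vanishes on a large enough diagonal subgroup is a coboundary. -/
theorem isCob_unip {k : Type} [Field k] [Finite k] {p : ℕ} [Fact p.Prime] [CharP k p] (hp2 : p ≠ 2)
    (G T : Subgroup (GL (Fin 2) k)) (hTG : T ≤ G)
    (hdiag : ∀ t ∈ T, (t : Matrix (Fin 2) (Fin 2) k) 0 1 = 0 ∧ (t : Matrix (Fin 2) (Fin 2) k) 1 0 = 0)
    (hdet : ∃ t ∈ T, (t : Matrix (Fin 2) (Fin 2) k).det ≠ 1)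
    (hdet5 : p = 5 → ∃ t ∈ T, (t : Matrix (Fin 2) (Fin 2) k).det ^ 2 ≠ 1)
    (hcount : Nat.card (unipSet G) - 1 ≤ 2 * Nat.card (ratioSet T))
    (f : G → Matrix (Fin 2) (Fin 2) k) (hf : IsCoc G f) (hfT : ∀ g : G, (g : GL (Fin 2) k) ∈ T → f g = 0) :
    ∃ m : Matrix (Fin 2) (Fin 2) k, m.trace = 0 ∧
      ∀ g : G, (∃ x : k, ((g : GL (Fin 2) k) : Matrix (Fin 2) (Fin 2) k) = uMat x) →
        f g = tw (g : GL (Fin 2) k) m - m := by
  classical
  have hmemX : ∀ x, x ∈ unipSet G ↔ uGL x ∈ G := by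
    intro x
    constructor
    · rintro ⟨g, hg, hgx⟩
      have : g = uGL x := Units.ext hgx
      rwa [← this]
    · intro h
      exact ⟨_, h, rfl⟩
  let X : AddSubgroup k :=
    { carrier := unipSet G
      add_mem' := by
        intro x y hx hy
        rw [hmemX] at hx hy ⊢
        rw [uGL_add]; exact G.mul_mem hx hy
      zero_mem' := by
        rw [hmemX, uGL_zero]; exact G.one_mem
      neg_mem' := by
        intro x hx
        rw [hmemX] at hx ⊢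
        rw [uGL_neg]; exact G.inv_mem hx }
  have hX : ∀ x, x ∈ X ↔ uGL x ∈ G := hmemX
  let F : k → Matrix (Fin 2) (Fin 2) k := fun x => if h : uGL x ∈ G then f ⟨uGL x, h⟩ else 0
  have hF : ∀ x (h : uGL x ∈ G), F x = f ⟨uGL x, h⟩ := fun x h => dif_pos h
  let D : Set (k × k) := {ad | ∃ t ∈ T, ad.1 = (t : Matrix (Fin 2) (Fin 2) k) 0 0 ∧
    ad.2 = (t : Matrix (Fin 2) (Fin 2) k) 1 1}
  have hDd : ∀ ad ∈ D, ∃ (ha : ad.1 ≠ 0) (hd : ad.2 ≠ 0), dGL ad.1 ad.2 ha hd ∈ T := by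
    rintro ⟨a, d⟩ ⟨t, ht, rfl, rfl⟩
    obtain ⟨ha, hd, e⟩ := eq_dGL t (hdiag t ht).1 (hdiag t ht).2
    exact ⟨ha, hd, e ▸ ht⟩
  have htr : ∀ x, F x 1 1 = - F x 0 0 := by
    intro x
    by_cases h : uGL x ∈ G
    · have := hf.1 ⟨uGL x, h⟩
      rw [← hF x h, Matrix.trace_fin_two] at this
      linear_combination this
    · have : F x = 0 := dif_neg h
      simp [this]
  have hadd : ∀ x ∈ X, ∀ y ∈ X, F (x + y) = F x + tw (uGL x) (F y) := by
    intro x hx y hy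
    have hx' := (hX x).1 hx
    have hy' := (hX y).1 hy
    have hxy' := (hX _).1 (X.add_mem hx hy)
    rw [hF _ hxy', hF _ hx', hF _ hy']
    have := hf.2 ⟨uGL x, hx'⟩ ⟨uGL y, hy'⟩
    rw [← this]
    congr 1
    exact Subtype.ext (uGL_add x y)
  have hDX : ∀ t ∈ D, ∀ x ∈ X, t.1 / t.2 * x ∈ X := by
    intro t ht x hx
    obtain ⟨ha, hd, htT⟩ := hDd t ht
    rw [hX] at hx ⊢
    have := dGL_mul_uGL t.1 t.2 ha hd x
    rw [← mul_inv_eq_iff_eq_mul] at this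
    rw [← this]
    exact G.mul_mem (G.mul_mem (hTG htT) hx) (G.inv_mem (hTG htT))
  have hequiv : ∀ t ∈ D, ∀ x ∈ X, F (t.1 / t.2 * x) =
      !![t.1 * t.2 * F x 0 0, t.1 ^ 2 * F x 0 1; t.2 ^ 2 * F x 1 0, t.1 * t.2 * F x 1 1] := by
    intro t ht x hx
    obtain ⟨ha, hd, htT⟩ := hDd t ht
    have hx' := (hX x).1 hx
    have hx2 := (hX _).1 (hDX t ht x hx)
    have e1 := hf.2 ⟨_, hTG htT⟩ ⟨uGL x, hx'⟩
    have e2 := hf.2 ⟨uGL (t.1 / t.2 * x), hx2⟩ ⟨_, hTG htT⟩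
    rw [hfT ⟨_, hTG htT⟩ htT] at e1 e2
    have e3 : (⟨_, hTG htT⟩ * ⟨uGL x, hx'⟩ : G) = ⟨uGL (t.1 / t.2 * x), hx2⟩ * ⟨_, hTG htT⟩ :=
      Subtype.ext (dGL_mul_uGL t.1 t.2 ha hd x)
    rw [e3, e2, tw_zero, add_zero, zero_add, ← hF _ hx2, ← hF _ hx', tw_dGL] at e1
    exact e1
  have hdetD : ∀ t ∈ T, (t : Matrix (Fin 2) (Fin 2) k).det =
      (t : Matrix (Fin 2) (Fin 2) k) 0 0 * (t : Matrix (Fin 2) (Fin 2) k) 1 1 := by
    intro t ht
    rw [Matrix.det_fin_two, (hdiag t ht).1, zero_mul, sub_zero]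
  have hratio : ratioSet T = {r : k | ∃ t ∈ D, t.1 * t.2 = 1 ∧ r = t.1 / t.2} := by
    ext r
    constructor
    · rintro ⟨t, ht, -, h1, rfl⟩
      exact ⟨(_, _), ⟨t, ht, rfl, rfl⟩, by rw [← hdetD t ht]; exact h1, rfl⟩
    · rintro ⟨⟨a, d⟩, ⟨t, ht, rfl, rfl⟩, h1, rfl⟩
      exact ⟨t, ht, (hdiag t ht).2, by rw [hdetD t ht]; exact h1, rfl⟩
  obtain ⟨κ, hκ⟩ := abs_coc (p := p) hp2 X D (fun t ht => by
      obtain ⟨ha, hd, -⟩ := hDd t ht; exact ⟨ha, hd⟩) hDX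
    (fun x => F x 0 1) (fun x => F x 0 0) (fun x => F x 1 0)
    (fun x hx y hy => by
      have := congrFun (congrFun (hadd x hx y hy) 1) 0
      rw [tw_uGL] at this
      simpa using this)
    (fun x hx y hy => by
      have := congrFun (congrFun (hadd x hx y hy) 0) 0
      rw [tw_uGL] at this
      simp only [Matrix.add_apply, Matrix.of_apply, Matrix.cons_val_zero] at this
      linear_combination this)
    (fun x hx y hy => by
      have := congrFun (congrFun (hadd x hx y hy) 0) 1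
      rw [tw_uGL] at this
      simp only [Matrix.add_apply, Matrix.of_apply, Matrix.cons_val_zero, Matrix.cons_val_one,
        htr y] at this
      linear_combination this)
    (fun t ht x hx => by
      have := congrFun (congrFun (hequiv t ht x hx) 1) 0
      simpa using this)
    (fun t ht x hx => by
      have := congrFun (congrFun (hequiv t ht x hx) 0) 0
      simpa using this)
    (fun t ht x hx => by
      have := congrFun (congrFun (hequiv t ht x hx) 0) 1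
      simpa using this)
    (by
      obtain ⟨t, ht, h⟩ := hdet
      exact ⟨(_, _), ⟨t, ht, rfl, rfl⟩, by rw [← hdetD t ht]; exact h⟩)
    (fun h5 => by
      obtain ⟨t, ht, h⟩ := hdet5 h5
      exact ⟨(_, _), ⟨t, ht, rfl, rfl⟩, by rw [← hdetD t ht]; exact h⟩)
    (by rw [← hratio]; exact hcount)
  refine ⟨!![0, 0; κ, 0], by simp [Matrix.trace_fin_two], ?_⟩
  rintro ⟨g, hg⟩ ⟨x, hx⟩
  have hgx : g = uGL x := Units.ext hx
  subst hgx
  have hxX : x ∈ X := (hX x).2 hg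
  obtain ⟨h1, h2, h3⟩ := hκ x hxX
  rw [← hF x hg, tw_uGL]
  ext i j
  fin_cases i <;> fin_cases j
  · simp [h2, mul_comm]
  · simp [h3, mul_comm]
  · simp [h1]
  · simp [htr x, h2, mul_comm]

end Fermat.Agent.S56.V
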