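import Fermat.Agent.S56.V.Defs

/-!
# S56 / V-SYL  (Mathlib only).  Normal form of `G ≤ GL₂(k)` when `p ∣ #G`.

Sylow (`P` fixes a nonzero vector), Frattini (`det` of the upper triangular part is `det G`),
Schur-Zassenhaus + averaging (a complement of the unipotent part is simultaneously diagonalisable by
some `u_c`).  Main result: `Syl.exists_normal_form`.
-/

set_option autoImplicit false
set_option linter.unusedSectionVars false

namespace Fermat.Agent.S56.V.Syl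

open Matrix

variable {k : Type} [Field k]

/-- `u_x` as an element of `GL₂(k)`. -/
noncomputable def uGL (x : k) : GL (Fin 2) k :=
  Matrix.GeneralLinearGroup.mkOfDetNeZero (uMat x) (by simp [uMat, Matrix.det_fin_two])

@[simp] lemma coe_uGL (x : k) : ((uGL x : GL (Fin 2) k) : Matrix (Fin 2) (Fin 2) k) = uMat x := rfl

lemma uGL_mul (x y : k) : uGL x * uGL y = uGL (x + y) := by
  apply Units.ext
  rw [Units.val_mul, coe_uGL, coe_uGL, coe_uGL]
  ext i j
  fin_cases i <;> fin_cases j <;> simp [uMat, Matrix.mul_apply, Fin.sum_univ_two, add_comm]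

lemma uGL_zero : uGL (0 : k) = 1 := by
  apply Units.ext
  rw [coe_uGL, Units.val_one]
  ext i j
  fin_cases i <;> fin_cases j <;> simp [uMat]

lemma uGL_inv (x : k) : (uGL x)⁻¹ = uGL (-x) := by
  rw [inv_eq_iff_mul_eq_one, uGL_mul, add_neg_cancel, uGL_zero]

lemma uGL_pow (x : k) (n : ℕ) : uGL x ^ n = uGL (n * x) := by
  induction n with
  | zero => simp [uGL_zero]
  | succ n ih => rw [pow_succ, ih, uGL_mul]; congr 1; push_cast; ring

lemma uGL_injective : Function.Injective (uGL : k → GL (Fin 2) k) := by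
  intro x y h
  have := congrArg (fun g : GL (Fin 2) k => (g : Matrix (Fin 2) (Fin 2) k) 0 1) h
  simpa [uMat] using this

lemma eq_uGL_iff (g : GL (Fin 2) k) (x : k) :
    g = uGL x ↔ (g : Matrix (Fin 2) (Fin 2) k) = uMat x :=
  ⟨fun h => by rw [h, coe_uGL], fun h => Units.ext h⟩

/-- entries of a product -/
lemma mul_entry (g h : GL (Fin 2) k) (i j : Fin 2) :
    ((g * h : GL (Fin 2) k) : Matrix (Fin 2) (Fin 2) k) i j =
      (g : Matrix (Fin 2) (Fin 2) k) i 0 * (h : Matrix (Fin 2) (Fin 2) k) 0 j +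
      (g : Matrix (Fin 2) (Fin 2) k) i 1 * (h : Matrix (Fin 2) (Fin 2) k) 1 j := by
  rw [Units.val_mul, Matrix.mul_apply, Fin.sum_univ_two]

lemma det_ne_zero' (g : GL (Fin 2) k) : (g : Matrix (Fin 2) (Fin 2) k).det ≠ 0 := by
  have := Matrix.GeneralLinearGroup.det g
  exact (Matrix.isUnit_iff_isUnit_det _).1 g.isUnit |>.ne_zero

lemma det_of_upper {g : GL (Fin 2) k} (h : (g : Matrix (Fin 2) (Fin 2) k) 1 0 = 0) :
    (g : Matrix (Fin 2) (Fin 2) k).det =
      (g : Matrix (Fin 2) (Fin 2) k) 0 0 * (g : Matrix (Fin 2) (Fin 2) k) 1 1 := by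
  rw [Matrix.det_fin_two, h, mul_zero, sub_zero]

lemma diag_ne_zero {g : GL (Fin 2) k} (h : (g : Matrix (Fin 2) (Fin 2) k) 1 0 = 0) :
    (g : Matrix (Fin 2) (Fin 2) k) 0 0 ≠ 0 ∧ (g : Matrix (Fin 2) (Fin 2) k) 1 1 ≠ 0 := by
  have := det_ne_zero' g
  rw [det_of_upper h] at this
  exact ⟨left_ne_zero_of_mul this, right_ne_zero_of_mul this⟩

/-- The upper triangular subgroup. -/
def borel (k : Type) [Field k] : Subgroup (GL (Fin 2) k) where
  carrier := {g | (g : Matrix (Fin 2) (Fin 2) k) 1 0 = 0}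
  mul_mem' := by
    intro a b ha hb
    simp only [Set.mem_ofPred_eq] at ha hb ⊢
    rw [mul_entry, ha, hb]; simp
  one_mem' := by simp
  inv_mem' := by
    intro a ha
    simp only [Set.mem_ofPred_eq] at ha ⊢
    have h1 := mul_entry a a⁻¹ 1 0
    rw [mul_inv_cancel, ha] at h1
    simp only [Units.val_one, zero_mul, zero_add] at h1
    have h2 : (1 : Matrix (Fin 2) (Fin 2) k) 1 0 = 0 := by simp
    rw [h2] at h1
    exact (mul_eq_zero.1 h1.symm).resolve_left (diag_ne_zero ha).2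

lemma mem_borel {g : GL (Fin 2) k} : g ∈ borel k ↔ (g : Matrix (Fin 2) (Fin 2) k) 1 0 = 0 := Iff.rfl

/-- The unipotent upper triangular subgroup. -/
def unip (k : Type) [Field k] : Subgroup (GL (Fin 2) k) where
  carrier := {g | ∃ x : k, g = uGL x}
  mul_mem' := by
    rintro _ _ ⟨x, rfl⟩ ⟨y, rfl⟩
    exact ⟨x + y, uGL_mul x y⟩
  one_mem' := ⟨0, uGL_zero.symm⟩
  inv_mem' := by
    rintro _ ⟨x, rfl⟩
    exact ⟨-x, uGL_inv x⟩

lemma mem_unip {g : GL (Fin 2) k} : g ∈ unip k ↔ ∃ x : k, g = uGL x := Iff.rfl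

lemma unip_le_borel : unip k ≤ borel k := by
  rintro _ ⟨x, rfl⟩
  simp [mem_borel, uMat]

/-- The diagonal subgroup. -/
def diag (k : Type) [Field k] : Subgroup (GL (Fin 2) k) where
  carrier := {g | (g : Matrix (Fin 2) (Fin 2) k) 0 1 = 0 ∧ (g : Matrix (Fin 2) (Fin 2) k) 1 0 = 0}
  mul_mem' := by
    intro a b ha hb
    simp only [Set.mem_ofPred_eq] at ha hb ⊢
    rw [mul_entry, mul_entry, ha.1, ha.2, hb.1, hb.2]; simp
  one_mem' := by simp
  inv_mem' := by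
    intro a ha
    simp only [Set.mem_ofPred_eq] at ha ⊢
    refine ⟨?_, (borel k).inv_mem (mem_borel.2 ha.2)⟩
    have h1 := mul_entry a a⁻¹ 0 1
    rw [mul_inv_cancel, ha.1] at h1
    simp only [Units.val_one, zero_mul, add_zero] at h1
    have h2 : (1 : Matrix (Fin 2) (Fin 2) k) 0 1 = 0 := by simp
    rw [h2] at h1
    exact (mul_eq_zero.1 h1.symm).resolve_left (diag_ne_zero ha.2).1

lemma mem_diag {g : GL (Fin 2) k} : g ∈ diag k ↔
    (g : Matrix (Fin 2) (Fin 2) k) 0 1 = 0 ∧ (g : Matrix (Fin 2) (Fin 2) k) 1 0 = 0 := Iff.rfl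

section charp

variable [Finite k] {p : ℕ} [Fact p.Prime] [CharP k p]

lemma eq_one_of_pow_char_pow {a : k} {n : ℕ} (h : a ^ p ^ n = 1) : a = 1 := by
  have h1 : (a - 1) ^ p ^ n = 0 := by
    rw [sub_pow_char_pow, h, one_pow, sub_self]
  exact sub_eq_zero.1 (pow_eq_zero_iff (pow_ne_zero _ (Fact.out : p.Prime).ne_zero) |>.1 h1)

lemma dvd_card_field (k : Type) [Field k] [Finite k] (p : ℕ) [hc : CharP k p] : p ∣ Nat.card k := by
  have h1 : addOrderOf (1 : k) = p := by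
    have := CharP.addOrderOf_one k
    exact CharP.eq k this hc
  rw [← h1]
  exact addOrderOf_dvd_natCard _

/-- the action of a subgroup of `GL₂(k)` on `k²` -/
abbrev vecAction (H : Subgroup (GL (Fin 2) k)) : MulAction H (Fin 2 → k) where
  smul h v := ((h : GL (Fin 2) k) : Matrix (Fin 2) (Fin 2) k).mulVec v
  one_smul v := by
    show ((1 : GL (Fin 2) k) : Matrix (Fin 2) (Fin 2) k).mulVec v = v
    simp
  mul_smul a b v := by
    show (((a : GL (Fin 2) k) * (b : GL (Fin 2) k) : GL (Fin 2) k) :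
      Matrix (Fin 2) (Fin 2) k).mulVec v = _
    rw [Units.val_mul, ← Matrix.mulVec_mulVec]
    rfl

/-- [L1] a `p`-subgroup of `GL₂(k)` fixes a nonzero vector. -/
lemma exists_fixed_vector (H : Subgroup (GL (Fin 2) k)) (hH : IsPGroup p H) :
    ∃ v : Fin 2 → k, v ≠ 0 ∧ ∀ h ∈ H, (h : Matrix (Fin 2) (Fin 2) k).mulVec v = v := by
  let _ := vecAction H
  have hcard : p ∣ Nat.card (Fin 2 → k) := by
    rw [Nat.card_fun, Nat.card_eq_fintype_card (α := Fin 2), Fintype.card_fin]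
    exact dvd_pow (dvd_card_field k p) two_ne_zero
  have h0 : (0 : Fin 2 → k) ∈ MulAction.fixedPoints H (Fin 2 → k) := by
    intro h
    show ((h : GL (Fin 2) k) : Matrix (Fin 2) (Fin 2) k).mulVec 0 = 0
    simp
  obtain ⟨b, hb, hne⟩ := hH.exists_fixed_point_of_prime_dvd_card_of_fixed_point (Fin 2 → k) hcard h0
  exact ⟨b, hne.symm, fun h hh => hb ⟨h, hh⟩⟩

/-- [L2] an element of `p`-power order fixing `e₁` is unipotent upper triangular. -/
lemma mem_unip_of_fix {h : GL (Fin 2) k} (hfix : (h : Matrix (Fin 2) (Fin 2) k).mulVec ![1, 0] = ![1, 0])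
    {n : ℕ} (hpow : h ^ p ^ n = 1) : h ∈ unip k := by
  have h00 : (h : Matrix (Fin 2) (Fin 2) k) 0 0 = 1 := by
    have := congrFun hfix 0
    simpa [Matrix.mulVec, dotProduct, Fin.sum_univ_two] using this
  have h10 : (h : Matrix (Fin 2) (Fin 2) k) 1 0 = 0 := by
    have := congrFun hfix 1
    simpa [Matrix.mulVec, dotProduct, Fin.sum_univ_two] using this
  have hdet : (h : Matrix (Fin 2) (Fin 2) k).det ^ p ^ n = 1 := by
    rw [← Matrix.det_pow, ← Units.val_pow_eq_pow_val, hpow, Units.val_one, Matrix.det_one]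
  have h11 : (h : Matrix (Fin 2) (Fin 2) k) 1 1 = 1 := by
    have := eq_one_of_pow_char_pow hdet
    rwa [det_of_upper h10, h00, one_mul] at this
  refine ⟨(h : Matrix (Fin 2) (Fin 2) k) 0 1, (eq_uGL_iff _ _).2 ?_⟩
  ext i j
  fin_cases i <;> fin_cases j <;> simp [uMat, h00, h10, h11]

lemma isPGroup_of_le_unip {H : Subgroup (GL (Fin 2) k)} (hH : H ≤ unip k) : IsPGroup p H := by
  rintro ⟨g, hg⟩
  obtain ⟨x, rfl⟩ := hH hg
  refine ⟨1, Subtype.ext ?_⟩
  simp only [pow_one, SubmonoidClass.mk_pow, OneMemClass.coe_one]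
  rw [uGL_pow, CharP.cast_eq_zero k p, zero_mul, uGL_zero]

lemma snd_eq_zero_of_uGL_fix {x : k} (hx : x ≠ 0) {w : Fin 2 → k}
    (h : (uMat x).mulVec w = w) : w 1 = 0 := by
  have := congrFun h 0
  simp only [uMat, Matrix.mulVec, dotProduct, Fin.sum_univ_two, Matrix.of_apply, Matrix.cons_val_zero,
    Matrix.cons_val_one, one_mul] at this
  have h2 : x * w 1 = 0 := by linear_combination this
  exact (mul_eq_zero.1 h2).resolve_left hx

lemma fix_e1_of_fix {h : GL (Fin 2) k} {w : Fin 2 → k} (hw : w ≠ 0) (hw1 : w 1 = 0)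
    (hfix : (h : Matrix (Fin 2) (Fin 2) k).mulVec w = w) :
    (h : Matrix (Fin 2) (Fin 2) k).mulVec ![1, 0] = ![1, 0] := by
  have hw0 : w 0 ≠ 0 := by
    intro h0
    apply hw
    ext i
    fin_cases i
    · exact h0
    · exact hw1
  have hwe : w = w 0 • ![1, 0] := by
    ext i
    fin_cases i <;> simp [hw1]
  rw [hwe, Matrix.mulVec_smul] at hfix
  exact smul_right_injective _ hw0 hfix

/-- [S] if `H` contains a nontrivial `u_x`, the unipotent upper triangular elements of `H` form a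
Sylow `p`-subgroup. -/
lemma not_dvd_index_unip (H : Subgroup (GL (Fin 2) k)) {x : k} (hx : x ≠ 0) (hxH : uGL x ∈ H) :
    ¬ p ∣ ((H ⊓ unip k).subgroupOf H).index := by
  have hU : IsPGroup p ((H ⊓ unip k).subgroupOf H) := by
    have h1 : IsPGroup p (H ⊓ unip k : Subgroup (GL (Fin 2) k)) := isPGroup_of_le_unip inf_le_right
    exact h1.comap_subtype
  obtain ⟨Q, hQ⟩ := hU.exists_le_sylow
  have hQ' : IsPGroup p ((Q : Subgroup H).map H.subtype) := Q.2.map _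
  obtain ⟨w, hw, hfix⟩ := exists_fixed_vector _ hQ'
  have hxQ : uGL x ∈ (Q : Subgroup H).map H.subtype :=
    ⟨⟨uGL x, hxH⟩, hQ (Subgroup.mem_subgroupOf.2 ⟨hxH, x, rfl⟩), rfl⟩
  have hw1 : w 1 = 0 := snd_eq_zero_of_uGL_fix hx (hfix _ hxQ)
  have hle : (Q : Subgroup H) ≤ (H ⊓ unip k).subgroupOf H := by
    intro g hg
    rw [Subgroup.mem_subgroupOf]
    refine ⟨g.2, ?_⟩
    obtain ⟨n, hn⟩ := Q.2 ⟨g, hg⟩
    have hn' : (g : GL (Fin 2) k) ^ p ^ n = 1 := by
      have := congrArg (fun z : (Q : Subgroup H) => ((z : H) : GL (Fin 2) k)) hn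
      simpa using this
    exact mem_unip_of_fix (fix_e1_of_fix hw hw1 (hfix _ ⟨g, hg, rfl⟩)) hn'
  have heq : (H ⊓ unip k).subgroupOf H = (Q : Subgroup H) := le_antisymm hQ hle
  rw [heq]
  exact Q.not_dvd_index

lemma conj_uGL {g : GL (Fin 2) k} (hg : (g : Matrix (Fin 2) (Fin 2) k) 1 0 = 0) (y : k) :
    g * uGL y * g⁻¹ = uGL ((g : Matrix (Fin 2) (Fin 2) k) 0 0 * y /
      (g : Matrix (Fin 2) (Fin 2) k) 1 1) := by
  rw [mul_inv_eq_iff_eq_mul]
  have hd := (diag_ne_zero hg).2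
  apply Units.ext
  ext i j
  fin_cases i <;> fin_cases j
  · simp [mul_entry, uMat, hg]
  · simp only [Fin.zero_eta, Fin.mk_one, mul_entry, coe_uGL, uMat, Matrix.of_apply,
      Matrix.cons_val_zero, Matrix.cons_val_one, Matrix.cons_val', Matrix.cons_val_fin_one]
    field_simp
    ring
  · simp [mul_entry, uMat, hg]
  · simp [mul_entry, uMat, hg]

/-- [K] Schur-Zassenhaus + Maschke (averaging): a common eigenvector `(c, 1)` for a complement of the
unipotent part in the upper triangular part of `H`. -/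
lemma exists_diagonalizer (p : ℕ) [Fact p.Prime] [CharP k p] (H : Subgroup (GL (Fin 2) k)) {x : k} (hx : x ≠ 0) (hxH : uGL x ∈ H) :
    ∃ c : k, ∀ b ∈ H, (b : Matrix (Fin 2) (Fin 2) k) 1 0 = 0 →
      ∃ t ∈ H, (t : Matrix (Fin 2) (Fin 2) k) 1 0 = 0 ∧
        (t : Matrix (Fin 2) (Fin 2) k) 0 0 = (b : Matrix (Fin 2) (Fin 2) k) 0 0 ∧
        (t : Matrix (Fin 2) (Fin 2) k) 1 1 = (b : Matrix (Fin 2) (Fin 2) k) 1 1 ∧
        (t : Matrix (Fin 2) (Fin 2) k) 0 1 =
          ((t : Matrix (Fin 2) (Fin 2) k) 1 1 - (t : Matrix (Fin 2) (Fin 2) k) 0 0) * c := by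
  set B : Subgroup (GL (Fin 2) k) := H ⊓ borel k with hB
  set N : Subgroup B := (H ⊓ unip k).subgroupOf B with hN
  have hUB : H ⊓ unip k ≤ B := inf_le_inf_left _ unip_le_borel
  have hnormal : N.Normal := by
    constructor
    intro n hn g
    rw [hN, Subgroup.mem_subgroupOf] at hn ⊢
    obtain ⟨y, hy⟩ := hn.2
    refine ⟨H.mul_mem (H.mul_mem g.2.1 hn.1) (H.inv_mem g.2.1), ?_⟩
    simp only [Subgroup.coe_mul, InvMemClass.coe_inv]
    rw [hy, conj_uGL (mem_borel.1 g.2.2)]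
    exact ⟨_, rfl⟩
  have hidx : ¬ p ∣ N.index := by
    intro h
    apply not_dvd_index_unip (p := p) H hx hxH
    have h1 := Subgroup.relIndex_mul_relIndex (H ⊓ unip k) B H hUB inf_le_left
    simp only [Subgroup.relIndex] at h1
    rw [← h1]
    exact Dvd.dvd.mul_right h _
  have hNp : IsPGroup p N := by
    have h1 : IsPGroup p (H ⊓ unip k : Subgroup (GL (Fin 2) k)) := isPGroup_of_le_unip inf_le_right
    exact h1.comap_subtype
  have hcop : Nat.Coprime (Nat.card N) N.index := by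
    obtain ⟨n, hn⟩ := IsPGroup.iff_card.1 hNp
    rw [hn]
    exact Nat.Coprime.pow_left n ((Nat.Prime.coprime_iff_not_dvd Fact.out).2 hidx)
  obtain ⟨T0, hT0⟩ := Subgroup.exists_right_complement'_of_coprime hcop
  have hcardT : ¬ p ∣ Nat.card T0 := by
    rw [← hT0.symm.index_eq_card]
    exact hidx
  have : Fintype T0 := Fintype.ofFinite _
  -- entries
  set ent : T0 → Matrix (Fin 2) (Fin 2) k := fun s => (((s : B) : GL (Fin 2) k) :
    Matrix (Fin 2) (Fin 2) k) with hent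
  have hent10 : ∀ s, ent s 1 0 = 0 := fun s => mem_borel.1 (s : B).2.2
  have hentmul : ∀ s t i j, ent (s * t) i j = ent s i 0 * ent t 0 j + ent s i 1 * ent t 1 j := by
    intro s t i j
    exact mul_entry _ _ i j
  have hn0 : ((Fintype.card T0 : ℕ) : k) ≠ 0 := by
    rw [Ne, CharP.cast_eq_zero_iff k p, ← Nat.card_eq_fintype_card]
    exact hcardT
  set S : k := ∑ s : T0, ent s 0 1 / ent s 1 1 with hS
  have hkey : ∀ t : T0, (Fintype.card T0 : k) * (ent t 0 1 / ent t 1 1) =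
      (1 - ent t 0 0 / ent t 1 1) * S := by
    intro t
    have h1 : S = ∑ s : T0, ent (t * s) 0 1 / ent (t * s) 1 1 :=
      (Fintype.sum_equiv (Equiv.mulLeft t) _ _ (fun s => rfl)).symm
    have h2 : ∀ s : T0, ent (t * s) 0 1 / ent (t * s) 1 1 =
        ent t 0 0 / ent t 1 1 * (ent s 0 1 / ent s 1 1) + ent t 0 1 / ent t 1 1 := by
      intro s
      have hd1 : ent t 1 1 ≠ 0 := (diag_ne_zero (hent10 t)).2
      have hd2 : ent s 1 1 ≠ 0 := (diag_ne_zero (hent10 s)).2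
      rw [hentmul, hentmul, hent10 t, zero_mul, zero_add]
      field_simp
    rw [Finset.sum_congr rfl (fun s _ => h2 s), Finset.sum_add_distrib, ← Finset.mul_sum,
      Finset.sum_const, Finset.card_univ, nsmul_eq_mul, ← hS] at h1
    linear_combination -h1
  refine ⟨(Fintype.card T0 : k)⁻¹ * S, fun b hbH hb => ?_⟩
  obtain ⟨⟨n, t⟩, hnt⟩ := hT0.2 ⟨b, hbH, mem_borel.2 hb⟩
  simp only at hnt
  obtain ⟨y, hy⟩ := (Subgroup.mem_subgroupOf.1 n.2).2
  have hb' : b = uGL y * ((t : B) : GL (Fin 2) k) := by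
    have := congrArg (fun z : B => (z : GL (Fin 2) k)) hnt
    simp only [Subgroup.coe_mul] at this
    rw [← this, hy]
  refine ⟨((t : B) : GL (Fin 2) k), (t : B).2.1, hent10 t, ?_, ?_, ?_⟩
  · rw [hb', mul_entry]
    have h10 : (((t : B) : GL (Fin 2) k) : Matrix (Fin 2) (Fin 2) k) 1 0 = 0 := hent10 t
    simp [uMat, h10]
  · rw [hb', mul_entry]
    simp [uMat]
  · have hd1 : ent t 1 1 ≠ 0 := (diag_ne_zero (hent10 t)).2
    have := hkey t
    show ent t 0 1 = (ent t 1 1 - ent t 0 0) * _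
    field_simp at this ⊢
    linear_combination this

lemma conj_neg_entries (b : GL (Fin 2) k) (c : k) :
    ((uGL (-c) * b * (uGL (-c))⁻¹ : GL (Fin 2) k) : Matrix (Fin 2) (Fin 2) k) 1 0 =
        (b : Matrix (Fin 2) (Fin 2) k) 1 0 ∧
    ((b : Matrix (Fin 2) (Fin 2) k) 1 0 = 0 →
      ((uGL (-c) * b * (uGL (-c))⁻¹ : GL (Fin 2) k) : Matrix (Fin 2) (Fin 2) k) 0 0 =
        (b : Matrix (Fin 2) (Fin 2) k) 0 0 ∧
      ((uGL (-c) * b * (uGL (-c))⁻¹ : GL (Fin 2) k) : Matrix (Fin 2) (Fin 2) k) 1 1 =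
        (b : Matrix (Fin 2) (Fin 2) k) 1 1 ∧
      ((uGL (-c) * b * (uGL (-c))⁻¹ : GL (Fin 2) k) : Matrix (Fin 2) (Fin 2) k) 0 1 =
        (b : Matrix (Fin 2) (Fin 2) k) 0 1 -
          ((b : Matrix (Fin 2) (Fin 2) k) 1 1 - (b : Matrix (Fin 2) (Fin 2) k) 0 0) * c) := by
  rw [uGL_inv, neg_neg]
  refine ⟨by simp [mul_entry, uMat], fun h => ⟨by simp [mul_entry, uMat, h],
    by simp [mul_entry, uMat, h], ?_⟩⟩
  simp only [mul_entry, coe_uGL, uMat, Matrix.of_apply, Matrix.cons_val_zero, Matrix.cons_val_one,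
    Matrix.cons_val', Matrix.cons_val_fin_one, h]
  ring

lemma pow_entries {g : GL (Fin 2) k} (hg : (g : Matrix (Fin 2) (Fin 2) k) 1 0 = 0) (n : ℕ) :
    ((g ^ n : GL (Fin 2) k) : Matrix (Fin 2) (Fin 2) k) 1 0 = 0 ∧
    ((g ^ n : GL (Fin 2) k) : Matrix (Fin 2) (Fin 2) k) 0 0 =
      (g : Matrix (Fin 2) (Fin 2) k) 0 0 ^ n ∧
    ((g ^ n : GL (Fin 2) k) : Matrix (Fin 2) (Fin 2) k) 1 1 =
      (g : Matrix (Fin 2) (Fin 2) k) 1 1 ^ n := by
  induction n with
  | zero => simp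
  | succ n ih =>
    obtain ⟨h1, h2, h3⟩ := ih
    rw [pow_succ]
    refine ⟨?_, ?_, ?_⟩
    · rw [mul_entry, h1, hg]; simp
    · rw [mul_entry, h2, hg, pow_succ]; simp
    · rw [mul_entry, h1, h3, pow_succ]; simp

lemma not_dvd_card_of_le_diag {T : Subgroup (GL (Fin 2) k)} (hT : T ≤ diag k) :
    ¬ p ∣ Nat.card T := by
  intro h
  obtain ⟨t, ht⟩ := exists_prime_orderOf_dvd_card' p h
  have h1 : (t : GL (Fin 2) k) ^ p = 1 := by
    have := pow_orderOf_eq_one t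
    rw [ht] at this
    have := congrArg (fun z : T => (z : GL (Fin 2) k)) this
    simpa using this
  obtain ⟨h01, h10⟩ := mem_diag.1 (hT t.2)
  obtain ⟨-, e0, e1⟩ := pow_entries h10 p
  rw [h1] at e0 e1
  simp only [Units.val_one, Matrix.one_apply_eq] at e0 e1
  have a1 : ((t : GL (Fin 2) k) : Matrix (Fin 2) (Fin 2) k) 0 0 = 1 :=
    eq_one_of_pow_char_pow (p := p) (n := 1) (by rw [pow_one]; exact e0.symm)
  have d1 : ((t : GL (Fin 2) k) : Matrix (Fin 2) (Fin 2) k) 1 1 = 1 :=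
    eq_one_of_pow_char_pow (p := p) (n := 1) (by rw [pow_one]; exact e1.symm)
  have ht1 : t = 1 := by
    apply Subtype.ext
    apply Units.ext
    ext i j
    fin_cases i <;> fin_cases j <;> simp [a1, d1, h01, h10]
  rw [ht1, orderOf_one] at ht
  exact (Fact.out : p.Prime).one_lt.ne ht

/-- normal form for a subgroup `H` which contains a nontrivial `u_x`. -/
lemma normal_form_of_unip (p : ℕ) [Fact p.Prime] [CharP k p] (H : Subgroup (GL (Fin 2) k)) {x : k}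
    (hx : x ≠ 0) (hxH : uGL x ∈ H) :
    ∃ c : k, uGL x ∈ H.map (MulAut.conj (uGL (-c))).toMonoidHom ∧
      (∀ g ∈ H.map (MulAut.conj (uGL (-c))).toMonoidHom, (g : Matrix (Fin 2) (Fin 2) k) 1 0 = 0 →
        ∃ t ∈ H.map (MulAut.conj (uGL (-c))).toMonoidHom ⊓ diag k,
          (t : Matrix (Fin 2) (Fin 2) k) 0 0 = (g : Matrix (Fin 2) (Fin 2) k) 0 0 ∧
          (t : Matrix (Fin 2) (Fin 2) k) 1 1 = (g : Matrix (Fin 2) (Fin 2) k) 1 1) ∧
      (∀ b ∈ H, (b : Matrix (Fin 2) (Fin 2) k) 1 0 = 0 →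
        ∃ t ∈ H.map (MulAut.conj (uGL (-c))).toMonoidHom ⊓ diag k,
          (t : Matrix (Fin 2) (Fin 2) k) 0 0 = (b : Matrix (Fin 2) (Fin 2) k) 0 0 ∧
          (t : Matrix (Fin 2) (Fin 2) k) 1 1 = (b : Matrix (Fin 2) (Fin 2) k) 1 1) := by
  obtain ⟨c, hc⟩ := exists_diagonalizer p H hx hxH
  have key : ∀ b ∈ H, (b : Matrix (Fin 2) (Fin 2) k) 1 0 = 0 →
        ∃ t ∈ H.map (MulAut.conj (uGL (-c))).toMonoidHom ⊓ diag k,
          (t : Matrix (Fin 2) (Fin 2) k) 0 0 = (b : Matrix (Fin 2) (Fin 2) k) 0 0 ∧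
          (t : Matrix (Fin 2) (Fin 2) k) 1 1 = (b : Matrix (Fin 2) (Fin 2) k) 1 1 := by
    intro b hb hb10
    obtain ⟨t, htH, ht10, ht00, ht11, ht01⟩ := hc b hb hb10
    obtain ⟨e10, e⟩ := conj_neg_entries t c
    obtain ⟨e00, e11, e01⟩ := e ht10
    refine ⟨uGL (-c) * t * (uGL (-c))⁻¹, ⟨⟨t, htH, rfl⟩, mem_diag.2 ⟨?_, ?_⟩⟩, ?_, ?_⟩
    · rw [e01, ht01, sub_self]
    · rw [e10, ht10]
    · rw [e00, ht00]
    · rw [e11, ht11]
  refine ⟨c, ⟨uGL x, hxH, ?_⟩, ?_, key⟩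
  · simp only [MulEquiv.coe_toMonoidHom, MulAut.conj_apply]
    rw [uGL_inv, uGL_mul, uGL_mul]
    congr 1
    ring
  · rintro _ ⟨b, hb, rfl⟩ hg
    simp only [MulEquiv.coe_toMonoidHom, MulAut.conj_apply] at hg ⊢
    obtain ⟨e10, e⟩ := conj_neg_entries b c
    rw [e10] at hg
    obtain ⟨e00, e11, -⟩ := e hg
    rw [e00, e11]
    exact key b hb hg

lemma mulVec_mul (a b : GL (Fin 2) k) (v : Fin 2 → k) :
    ((a * b : GL (Fin 2) k) : Matrix (Fin 2) (Fin 2) k).mulVec v =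
      (a : Matrix (Fin 2) (Fin 2) k).mulVec ((b : Matrix (Fin 2) (Fin 2) k).mulVec v) := by
  rw [Units.val_mul, Matrix.mulVec_mulVec]

lemma inv_mulVec_mulVec (a : GL (Fin 2) k) (v : Fin 2 → k) :
    ((a⁻¹ : GL (Fin 2) k) : Matrix (Fin 2) (Fin 2) k).mulVec
      ((a : Matrix (Fin 2) (Fin 2) k).mulVec v) = v := by
  rw [← mulVec_mul, inv_mul_cancel, Units.val_one, Matrix.one_mulVec]

lemma exists_gl_of_ne_zero {e : Fin 2 → k} (he : e ≠ 0) :
    ∃ m : GL (Fin 2) k, (m : Matrix (Fin 2) (Fin 2) k).mulVec ![1, 0] = e := by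
  by_cases h0 : e 0 = 0
  · have h1 : e 1 ≠ 0 := by
      intro h1
      apply he
      ext i
      fin_cases i
      · exact h0
      · exact h1
    refine ⟨Matrix.GeneralLinearGroup.mkOfDetNeZero !![e 0, 1; e 1, 0]
      (by simp [Matrix.det_fin_two, h1]), ?_⟩
    ext i
    fin_cases i <;> simp [Matrix.GeneralLinearGroup.mkOfDetNeZero, Matrix.mulVec, dotProduct,
      Fin.sum_univ_two]
  · refine ⟨Matrix.GeneralLinearGroup.mkOfDetNeZero !![e 0, 0; e 1, 1]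
      (by simp [Matrix.det_fin_two, h0]), ?_⟩
    ext i
    fin_cases i <;> simp [Matrix.GeneralLinearGroup.mkOfDetNeZero, Matrix.mulVec, dotProduct,
      Fin.sum_univ_two]

lemma det_conj (a g : GL (Fin 2) k) :
    ((a * g * a⁻¹ : GL (Fin 2) k) : Matrix (Fin 2) (Fin 2) k).det =
      (g : Matrix (Fin 2) (Fin 2) k).det := by
  have h : Matrix.GeneralLinearGroup.det (a * g * a⁻¹) = Matrix.GeneralLinearGroup.det g := by
    rw [map_mul, map_mul, map_inv, mul_comm (Matrix.GeneralLinearGroup.det a),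
      mul_inv_cancel_right]
  have := congrArg (fun u : kˣ => (u : k)) h
  rwa [Matrix.GeneralLinearGroup.val_det_apply, Matrix.GeneralLinearGroup.val_det_apply] at this

/-- first conjugation: Sylow + fixed vector + Frattini. -/
lemma exists_position (G : Subgroup (GL (Fin 2) k)) (hp : p ∣ Nat.card G) :
    ∃ (g₁ : GL (Fin 2) k) (x : k), x ≠ 0 ∧ uGL x ∈ G.map (MulAut.conj g₁).toMonoidHom ∧
      ∀ g ∈ G, ∃ b ∈ G.map (MulAut.conj g₁).toMonoidHom,
        (b : Matrix (Fin 2) (Fin 2) k) 1 0 = 0 ∧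
        (b : Matrix (Fin 2) (Fin 2) k).det = (g : Matrix (Fin 2) (Fin 2) k).det := by
  set detG : G →* kˣ := (Matrix.GeneralLinearGroup.det (n := Fin 2) (R := k)).comp G.subtype
    with hdetG
  set N : Subgroup G := detG.ker with hN
  obtain ⟨P⟩ : Nonempty (Sylow p G) := inferInstance
  have hPpow : ∀ g ∈ (P : Subgroup G), ∃ n : ℕ, (g : GL (Fin 2) k) ^ p ^ n = 1 := by
    intro g hg
    obtain ⟨n, hn⟩ := P.2 ⟨g, hg⟩
    refine ⟨n, ?_⟩
    have := congrArg (fun z : (P : Subgroup G) => ((z : G) : GL (Fin 2) k)) hn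
    simpa using this
  have hPN : (P : Subgroup G) ≤ N := by
    intro g hg
    obtain ⟨n, hn⟩ := hPpow g hg
    rw [hN, MonoidHom.mem_ker]
    apply Units.ext
    have h1 : ((g : GL (Fin 2) k) : Matrix (Fin 2) (Fin 2) k).det ^ p ^ n = 1 := by
      rw [← Matrix.det_pow, ← Units.val_pow_eq_pow_val, hn, Units.val_one, Matrix.det_one]
    exact eq_one_of_pow_char_pow h1
  have hfr := Sylow.normalizer_sup_eq_top' P hPN
  have hPne : (P : Subgroup G) ≠ ⊥ := P.ne_bot_of_dvd_card hp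
  obtain ⟨e1, he1, hfix⟩ := exists_fixed_vector ((P : Subgroup G).map G.subtype) (P.2.map _)
  obtain ⟨m, hm⟩ := exists_gl_of_ne_zero he1
  obtain ⟨⟨h0, hh0⟩, hne⟩ := (Subgroup.ne_bot_iff_exists_ne_one).1 hPne
  have hne' : (h0 : GL (Fin 2) k) ≠ 1 := by
    intro h
    apply hne
    apply Subtype.ext
    apply Subtype.ext
    exact h
  -- conjugates of elements fixing `e1` fix `![1, 0]`
  have hconjfix : ∀ h : GL (Fin 2) k, (h : Matrix (Fin 2) (Fin 2) k).mulVec e1 = e1 →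
      ((m⁻¹ * h * m⁻¹⁻¹ : GL (Fin 2) k) : Matrix (Fin 2) (Fin 2) k).mulVec ![1, 0] = ![1, 0] := by
    intro h hh
    rw [inv_inv, mulVec_mul, mulVec_mul, hm, hh, ← hm, inv_mulVec_mulVec]
  -- the nontrivial unipotent
  obtain ⟨n0, hn0⟩ := hPpow h0 hh0
  have hu : m⁻¹ * (h0 : GL (Fin 2) k) * m⁻¹⁻¹ ∈ unip k := by
    refine mem_unip_of_fix (p := p) (n := n0) (hconjfix _ (hfix _ ⟨h0, hh0, rfl⟩)) ?_
    rw [conj_pow, hn0, mul_one, mul_inv_cancel]
  obtain ⟨x, hx⟩ := hu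
  have hx0 : x ≠ 0 := by
    rintro rfl
    rw [uGL_zero, mul_inv_eq_one] at hx
    exact hne' (mul_eq_left.1 hx)
  refine ⟨m⁻¹, x, hx0, ⟨h0, h0.2, hx⟩, fun g hg => ?_⟩
  have hmem : (⟨g, hg⟩ : G) ∈ (⊤ : Subgroup G) := trivial
  rw [← hfr, ← SetLike.mem_coe, Subgroup.mul_normal] at hmem
  obtain ⟨y, hy, z, hz, hyz⟩ := Set.mem_mul.1 hmem
  have hy' : y⁻¹ * h0 * y ∈ (P : Subgroup G) := (Subgroup.mem_set_normalizer_iff''.1 hy h0).1 hh0
  -- `h0` fixes `y e1`
  have h1 : ((h0 : GL (Fin 2) k) : Matrix (Fin 2) (Fin 2) k).mulVec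
      (((y : GL (Fin 2) k) : Matrix (Fin 2) (Fin 2) k).mulVec e1) =
      ((y : GL (Fin 2) k) : Matrix (Fin 2) (Fin 2) k).mulVec e1 := by
    have h2 := hfix _ ⟨y⁻¹ * h0 * y, hy', rfl⟩
    simp only [Subgroup.coe_subtype, Subgroup.coe_mul, InvMemClass.coe_inv] at h2
    rw [mulVec_mul, mulVec_mul] at h2
    have h3 := congrArg (fun w => ((y : GL (Fin 2) k) : Matrix (Fin 2) (Fin 2) k).mulVec w) h2
    rwa [← mulVec_mul, mul_inv_cancel, Units.val_one, Matrix.one_mulVec] at h3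
  set v' : Fin 2 → k := ((m⁻¹ : GL (Fin 2) k) : Matrix (Fin 2) (Fin 2) k).mulVec
      (((y : GL (Fin 2) k) : Matrix (Fin 2) (Fin 2) k).mulVec e1) with hv'
  have h4 : (uMat x).mulVec v' = v' := by
    rw [← coe_uGL, ← hx, inv_inv, mulVec_mul, mulVec_mul, hv', ← mulVec_mul m, mul_inv_cancel,
      Units.val_one, Matrix.one_mulVec, h1]
  have h5 : v' 1 = 0 := snd_eq_zero_of_uGL_fix hx0 h4
  have h6 : ((m⁻¹ * (y : GL (Fin 2) k) * m⁻¹⁻¹ : GL (Fin 2) k) :
      Matrix (Fin 2) (Fin 2) k).mulVec ![1, 0] = v' := by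
    rw [inv_inv, mulVec_mul, mulVec_mul, hm]
  refine ⟨m⁻¹ * (y : GL (Fin 2) k) * m⁻¹⁻¹, ⟨y, y.2, rfl⟩, ?_, ?_⟩
  · have := congrFun h6 1
    rw [h5] at this
    simpa [Matrix.mulVec, dotProduct, Fin.sum_univ_two] using this
  · rw [det_conj]
    have hz1 : ((z : GL (Fin 2) k) : Matrix (Fin 2) (Fin 2) k).det = 1 := by
      have := congrArg (fun u : kˣ => (u : k)) (MonoidHom.mem_ker.1 hz)
      simpa [hdetG] using this
    have hg' : g = (y : GL (Fin 2) k) * (z : GL (Fin 2) k) := by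
      have := congrArg (fun w : G => (w : GL (Fin 2) k)) hyz
      simpa using this.symm
    rw [hg', Units.val_mul, Matrix.det_mul, hz1, mul_one]

lemma map_conj_map_conj (G : Subgroup (GL (Fin 2) k)) (a b : GL (Fin 2) k) :
    (G.map (MulAut.conj b).toMonoidHom).map (MulAut.conj a).toMonoidHom =
      G.map (MulAut.conj (a * b)).toMonoidHom := by
  rw [Subgroup.map_map]
  congr 1
  ext x : 1
  simp [MulAut.conj_apply, mul_assoc]

end charp

/-- [V-SYL] normal form of `G` when `p ∣ #G`. -/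
theorem exists_normal_form {k : Type} [Field k] [Finite k] {p : ℕ} [Fact p.Prime] [CharP k p]
    (G : Subgroup (GL (Fin 2) k)) (hp : p ∣ Nat.card G) :
    ∃ (g₀ : GL (Fin 2) k) (P T : Subgroup (GL (Fin 2) k)),
      P ≤ G.map (MulAut.conj g₀).toMonoidHom ∧ T ≤ G.map (MulAut.conj g₀).toMonoidHom ∧
      (∀ g, g ∈ P ↔ g ∈ G.map (MulAut.conj g₀).toMonoidHom ∧
        ∃ x : k, (g : Matrix (Fin 2) (Fin 2) k) = uMat x) ∧
      (∃ x ∈ unipSet (G.map (MulAut.conj g₀).toMonoidHom), x ≠ 0) ∧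
      ¬ p ∣ (P.subgroupOf (G.map (MulAut.conj g₀).toMonoidHom)).index ∧
      ¬ p ∣ Nat.card T ∧
      (∀ t ∈ T, (t : Matrix (Fin 2) (Fin 2) k) 0 1 = 0 ∧ (t : Matrix (Fin 2) (Fin 2) k) 1 0 = 0) ∧
      ratioSet (G.map (MulAut.conj g₀).toMonoidHom) = ratioSet T ∧
      (∀ g ∈ G, ∃ t ∈ T, (t : Matrix (Fin 2) (Fin 2) k).det = (g : Matrix (Fin 2) (Fin 2) k).det) := by
  obtain ⟨g₁, x, hx, hxH, hF⟩ := exists_position (p := p) G hp
  obtain ⟨c, hxG', hup, hb⟩ := normal_form_of_unip p _ hx hxH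
  rw [map_conj_map_conj] at hxG' hup hb
  set G' := G.map (MulAut.conj (uGL (-c) * g₁)).toMonoidHom with hG'
  refine ⟨uGL (-c) * g₁, G' ⊓ unip k, G' ⊓ diag k, inf_le_left, inf_le_left, ?_, ?_, ?_, ?_, ?_, ?_,
    ?_⟩
  · intro g
    rw [Subgroup.mem_inf, mem_unip]
    simp only [eq_uGL_iff]
    exact Iff.rfl
  · exact ⟨x, ⟨uGL x, hxG', rfl⟩, hx⟩
  · exact not_dvd_index_unip G' hx hxG'
  · exact not_dvd_card_of_le_diag inf_le_right
  · exact fun t ht => mem_diag.1 ht.2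
  · ext r
    constructor
    · rintro ⟨g, hg, hg10, hgdet, rfl⟩
      obtain ⟨t, ht, h00, h11⟩ := hup g hg hg10
      refine ⟨t, ht, (mem_diag.1 ht.2).2, ?_, by rw [h00, h11]⟩
      rw [det_of_upper (mem_diag.1 ht.2).2, h00, h11, ← det_of_upper hg10, hgdet]
    · rintro ⟨t, ht, ht10, htdet, rfl⟩
      exact ⟨t, ht.1, ht10, htdet, rfl⟩
  · intro g hg
    obtain ⟨b, hbH, hb10, hbdet⟩ := hF g hg
    obtain ⟨t, ht, h00, h11⟩ := hb b hbH hb10
    refine ⟨t, ht, ?_⟩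
    rw [det_of_upper (mem_diag.1 ht.2).2, h00, h11, ← det_of_upper hb10, hbdet]

end Fermat.Agent.S56.V.Syl
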