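import Fermat.Agent.S56.V.Count
import Fermat.Agent.S56.V.Coc
import Fermat.Agent.S56.V.Syl

/-!
# S56 / V-SYL + V-MAIN  (Mathlib only).  `H¹(G, ad⁰ ⊗ det) = 0`.

THEOREM (V).  `k` finite of odd characteristic `p`, `G ≤ GL₂(k)` with no stable line, all elements split over `k`, `det G ⊇ 𝔽_pˣ`.
Then every cocycle `G → sl₂(k)` for `g • m = det g • g m g⁻¹` is a coboundary.

PAPER PROOF.  (0) `p ∤ #G`: average.  (General fact [RES]: if `H ≤ G` has index prime to `p` and `f|_H` is a coboundary then `f` is: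
 subtract `∂m`, so `f|_H = 0`; then `f` is constant on cosets `gH`, `m' := -(1/[G:H]) ∑_{gH} f(g)` works.)
 (1) `p ∣ #G`: `P` a Sylow `p`-subgroup `≠ 1`; it fixes a nonzero vector `e₁` (a `p`-group acting on `k² \ {0}`, of cardinality prime to `p`).
 `B := Stab_G(k e₁) ⊇ N_G(P)`; `P ◁ B` is the set of elements of `B` of `p`-power order (kernel of `B → kˣ × kˣ`), `B/P` has order prime to `p`:
 Schur-Zassenhaus (Mathlib `Subgroup.exists_right_complement'_of_coprime`) gives `T ≤ B`, `B = P T`, `P ∩ T = 1`; `T` has order prime to `p` and stabilises `k e₁`: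
 Maschke gives a `T`-stable complement `k e₂`.  Conjugate by the base change `(e₁,e₂)`: `P = {u_x | x ∈ X}`, `T` diagonal, upper triangular elements of `G` = `P T`;
 so `ratioSet G = ratioSet T` and `unipSet G = X ≠ {0}`.  (The statement is invariant under conjugation: `f'(g₀ g g₀⁻¹) = g₀ f(g) g₀⁻¹`.)
 (2) Frattini (`Sylow.normalizer_sup_eq_top` for `G₁ = G ∩ SL₂ ◁ G`, which contains every Sylow `p`-subgroup of `G`): `G = N_G(P) G₁`, `N_G(P) ≤ B`, so `det T = det B = det G ⊇ 𝔽_pˣ`: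
 gives `hdet` (`p ≥ 3`) and `hdet5` (`2 ∈ 𝔽₅ˣ`, `2² = 4 ≠ 1`).
 (3) `#T` prime to `p`: `f|_T = ∂m₀|_T`; replace `f` by `f - ∂m₀`.  `card_unipSet_le` + `isCob_unip`: `f|_P` is a coboundary.  `[G:P]` prime to `p`: [RES].
-/

set_option autoImplicit false

namespace Fermat.Agent.S56.V

open Matrix

section tw

variable {k : Type} [Field k]

theorem tw_add_vm (g : GL (Fin 2) k) (m m' : Matrix (Fin 2) (Fin 2) k) :
    tw g (m + m') = tw g m + tw g m' := by
  unfold tw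
  rw [mul_add, add_mul, smul_add]

theorem tw_zero_vm (g : GL (Fin 2) k) : tw g (0 : Matrix (Fin 2) (Fin 2) k) = 0 := by
  unfold tw
  simp

theorem tw_neg_vm (g : GL (Fin 2) k) (m : Matrix (Fin 2) (Fin 2) k) : tw g (-m) = -tw g m := by
  unfold tw
  simp

theorem tw_sub_vm (g : GL (Fin 2) k) (m m' : Matrix (Fin 2) (Fin 2) k) :
    tw g (m - m') = tw g m - tw g m' := by
  rw [sub_eq_add_neg, tw_add_vm, tw_neg_vm, ← sub_eq_add_neg]

theorem tw_smul_vm (g : GL (Fin 2) k) (c : k) (m : Matrix (Fin 2) (Fin 2) k) :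
    tw g (c • m) = c • tw g m := by
  unfold tw
  rw [Matrix.mul_smul, Matrix.smul_mul, smul_comm]

theorem tw_sum_vm {ι : Type*} (g : GL (Fin 2) k) (s : Finset ι) (F : ι → Matrix (Fin 2) (Fin 2) k) :
    tw g (∑ i ∈ s, F i) = ∑ i ∈ s, tw g (F i) := by
  classical
  induction s using Finset.induction_on with
  | empty => simp [tw_zero_vm]
  | insert a s ha ih => rw [Finset.sum_insert ha, Finset.sum_insert ha, tw_add_vm, ih]

theorem tw_one_vm (m : Matrix (Fin 2) (Fin 2) k) : tw (1 : GL (Fin 2) k) m = m := by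
  unfold tw
  simp

theorem tw_mul_vm (g h : GL (Fin 2) k) (m : Matrix (Fin 2) (Fin 2) k) :
    tw (g * h) m = tw g (tw h m) := by
  unfold tw
  rw [_root_.mul_inv_rev, Units.val_mul, Units.val_mul, Matrix.det_mul, Matrix.mul_smul, Matrix.smul_mul,
    smul_smul]
  simp only [Matrix.mul_assoc]

theorem trace_tw_vm (g : GL (Fin 2) k) (m : Matrix (Fin 2) (Fin 2) k) :
    (tw g m).trace = (g : Matrix (Fin 2) (Fin 2) k).det * m.trace := by
  unfold tw
  rw [Matrix.trace_smul, Matrix.trace_mul_comm, ← Matrix.mul_assoc, ← Units.val_mul,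
    inv_mul_cancel, Units.val_one, Matrix.one_mul, smul_eq_mul]

theorem trace_tw_eq_zero_vm (g : GL (Fin 2) k) {m : Matrix (Fin 2) (Fin 2) k} (hm : m.trace = 0) :
    (tw g m).trace = 0 := by rw [trace_tw_vm, hm, mul_zero]

theorem IsCoc.map_one_vm {G : Subgroup (GL (Fin 2) k)} {f : G → Matrix (Fin 2) (Fin 2) k}
    (hf : IsCoc G f) : f 1 = 0 := by
  have := hf.2 1 1
  rw [mul_one, Subgroup.coe_one, tw_one_vm] at this
  exact left_eq_add.1 this

/-- subtracting a coboundary -/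
theorem IsCoc.sub_cob_vm {G : Subgroup (GL (Fin 2) k)} {f : G → Matrix (Fin 2) (Fin 2) k}
    (hf : IsCoc G f) {m : Matrix (Fin 2) (Fin 2) k} (hm : m.trace = 0) :
    IsCoc G (fun g => f g - (tw (g : GL (Fin 2) k) m - m)) := by
  refine ⟨fun g => ?_, fun g h => ?_⟩
  · rw [Matrix.trace_sub, Matrix.trace_sub, hf.1 g, trace_tw_eq_zero_vm _ hm, hm]
    simp
  · show f (g * h) - (tw ((g * h : G) : GL (Fin 2) k) m - m) =
      (f g - (tw (g : GL (Fin 2) k) m - m)) +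
        tw (g : GL (Fin 2) k) (f h - (tw (h : GL (Fin 2) k) m - m))
    rw [hf.2 g h, Subgroup.coe_mul, tw_mul_vm, tw_sub_vm, tw_sub_vm]
    abel

theorem IsCob.of_sub_cob_vm {G : Subgroup (GL (Fin 2) k)} {f : G → Matrix (Fin 2) (Fin 2) k}
    {m : Matrix (Fin 2) (Fin 2) k} (hm : m.trace = 0)
    (h : IsCob G (fun g => f g - (tw (g : GL (Fin 2) k) m - m))) : IsCob G f := by
  obtain ⟨m', hm', h'⟩ := h
  refine ⟨m' + m, by rw [Matrix.trace_add, hm', hm, add_zero], fun g => ?_⟩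
  have := h' g
  rw [sub_eq_iff_eq_add] at this
  rw [this, tw_add_vm]
  abel

end tw

/-- [RES] restriction to a subgroup of index prime to `p` detects coboundaries. -/
theorem isCob_of_index_coprime {k : Type} [Field k] [Finite k] {p : ℕ} [Fact p.Prime] [CharP k p]
    (G H : Subgroup (GL (Fin 2) k)) (_hHG : H ≤ G) (hidx : ¬ p ∣ (H.subgroupOf G).index)
    (f : G → Matrix (Fin 2) (Fin 2) k) (hf : IsCoc G f)
    (hres : ∃ m : Matrix (Fin 2) (Fin 2) k, m.trace = 0 ∧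
      ∀ g : G, (g : GL (Fin 2) k) ∈ H → f g = tw (g : GL (Fin 2) k) m - m) :
    IsCob G f := by
  classical
  obtain ⟨m, hm, hmH⟩ := hres
  refine IsCob.of_sub_cob_vm hm ?_
  set f' : G → Matrix (Fin 2) (Fin 2) k := fun g => f g - (tw (g : GL (Fin 2) k) m - m) with hf'
  have hc : IsCoc G f' := hf.sub_cob_vm hm
  have hH : ∀ g : G, (g : GL (Fin 2) k) ∈ H → f' g = 0 := fun g hg => by
    rw [hf']
    show f g - (tw (g : GL (Fin 2) k) m - m) = 0
    rw [hmH g hg, sub_self]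
  have hconst : ∀ a b : G, (QuotientGroup.leftRel (H.subgroupOf G)) a b → f' a = f' b := by
    intro a b hab
    rw [QuotientGroup.leftRel_apply] at hab
    have h1 : b = a * (a⁻¹ * b) := by group
    rw [h1, hc.2, hH _ (Subgroup.mem_subgroupOf.1 hab), tw_zero_vm, add_zero]
  let F : G ⧸ (H.subgroupOf G) → Matrix (Fin 2) (Fin 2) k := Quotient.lift f' hconst
  have hF : ∀ g : G, F (QuotientGroup.mk g) = f' g := fun _ => rfl
  have : Finite (GL (Fin 2) k) := inferInstance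
  have : Fintype (G ⧸ (H.subgroupOf G)) := Fintype.ofFinite _
  set n : ℕ := (H.subgroupOf G).index with hn
  have hncard : Fintype.card (G ⧸ (H.subgroupOf G)) = n := by
    rw [hn, Subgroup.index, Nat.card_eq_fintype_card]
  have hn0 : (n : k) ≠ 0 := by
    intro h0
    exact hidx ((CharP.cast_eq_zero_iff k p n).1 h0)
  set s : Matrix (Fin 2) (Fin 2) k := ∑ c, F c with hs
  have hstr : s.trace = 0 := by
    rw [hs, Matrix.trace_sum]
    refine Finset.sum_eq_zero fun c _ => ?_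
    induction c using QuotientGroup.induction_on with
    | H g => rw [hF]; exact hc.1 g
  have key : ∀ g : G, tw (g : GL (Fin 2) k) s = s - (n : k) • f' g := by
    intro g
    rw [hs, tw_sum_vm]
    have h1 : ∀ c : G ⧸ (H.subgroupOf G), tw (g : GL (Fin 2) k) (F c) = F (g • c) - f' g := by
      intro c
      induction c using QuotientGroup.induction_on with
      | H x =>
        show tw (g : GL (Fin 2) k) (f' x) = f' (g * x) - f' g
        rw [hc.2]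
        abel
    have h2 : ∑ c, F (g • c) = ∑ c, F c := Equiv.sum_comp (MulAction.toPerm g) F
    rw [Finset.sum_congr rfl fun c _ => h1 c, Finset.sum_sub_distrib, h2, Finset.sum_const,
      Finset.card_univ, hncard, Nat.cast_smul_eq_nsmul]
  refine ⟨-((n : k)⁻¹ • s), by rw [Matrix.trace_neg, Matrix.trace_smul, hstr]; simp, fun g => ?_⟩
  rw [tw_neg_vm, tw_smul_vm, key g, smul_sub, smul_smul, inv_mul_cancel₀ hn0, one_smul]
  abel


/-- [V-SYL] normal form of `G` when `p ∣ #G`. -/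
theorem exists_normal_form {k : Type} [Field k] [Finite k] {p : ℕ} [Fact p.Prime] [CharP k p]
    (G : Subgroup (GL (Fin 2) k)) (hp : p ∣ Nat.card G) :
    ∃ (g₀ : GL (Fin 2) k) (P T : Subgroup (GL (Fin 2) k)),
      P ≤ G.map (MulAut.conj g₀).toMonoidHom ∧ T ≤ G.map (MulAut.conj g₀).toMonoidHom ∧
      (∀ g, g ∈ P ↔ g ∈ G.map (MulAut.conj g₀).toMonoidHom ∧
        ∃ x : k, (g : Matrix (Fin 2) (Fin 2) k) = uMat x) ∧
      (∃ x ∈ unipSet (G.map (MulAut.conj g₀).toMonoidHom), x ≠ 0) ∧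
      ¬ p ∣ (P.subgroupOf (G.map (MulAut.conj g₀).toMonoidHom)).index ∧
      ¬ p ∣ Nat.card T ∧
      (∀ t ∈ T, (t : Matrix (Fin 2) (Fin 2) k) 0 1 = 0 ∧ (t : Matrix (Fin 2) (Fin 2) k) 1 0 = 0) ∧
      ratioSet (G.map (MulAut.conj g₀).toMonoidHom) = ratioSet T ∧
      (∀ g ∈ G, ∃ t ∈ T, (t : Matrix (Fin 2) (Fin 2) k).det = (g : Matrix (Fin 2) (Fin 2) k).det) :=
  Syl.exists_normal_form G hp

/-- (0) groups of order prime to `p`. -/
theorem isCob_of_card_coprime_vm {k : Type} [Field k] [Finite k] {p : ℕ} [Fact p.Prime] [CharP k p]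
    (G : Subgroup (GL (Fin 2) k)) (hG : ¬ p ∣ Nat.card G)
    (f : G → Matrix (Fin 2) (Fin 2) k) (hf : IsCoc G f) : IsCob G f := by
  refine isCob_of_index_coprime (p := p) G ⊥ bot_le ?_ f hf ⟨0, by simp, fun g hg => ?_⟩
  · rwa [Subgroup.bot_subgroupOf, Subgroup.index_bot]
  · have : g = 1 := Subtype.ext (Subgroup.mem_bot.1 hg)
    rw [this, hf.map_one_vm, tw_zero_vm, sub_zero]

section conj

variable {k : Type} [Field k] (g₀ : GL (Fin 2) k) (G : Subgroup (GL (Fin 2) k))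

theorem mem_map_conj_iff_vm {g' : GL (Fin 2) k} :
    g' ∈ G.map (MulAut.conj g₀).toMonoidHom ↔ g₀⁻¹ * g' * g₀ ∈ G := by
  constructor
  · rintro ⟨g, hg, rfl⟩
    have : g₀⁻¹ * (MulAut.conj g₀).toMonoidHom g * g₀ = g := by
      show g₀⁻¹ * (g₀ * g * g₀⁻¹) * g₀ = g
      group
    rwa [this]
  · intro h
    refine ⟨_, h, ?_⟩
    show g₀ * (g₀⁻¹ * g' * g₀) * g₀⁻¹ = g'
    group

theorem conj_mem_map_vm {g : GL (Fin 2) k} (hg : g ∈ G) :
    g₀ * g * g₀⁻¹ ∈ G.map (MulAut.conj g₀).toMonoidHom := ⟨g, hg, rfl⟩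

/-- transport of a cocycle to a conjugate subgroup -/
noncomputable def conjCocVM (f : G → Matrix (Fin 2) (Fin 2) k) :
    G.map (MulAut.conj g₀).toMonoidHom → Matrix (Fin 2) (Fin 2) k :=
  fun g' => tw g₀ (f ⟨g₀⁻¹ * g' * g₀, (mem_map_conj_iff_vm g₀ G).1 g'.2⟩)

theorem IsCoc.conjCocVM {f : G → Matrix (Fin 2) (Fin 2) k} (hf : IsCoc G f) :
    IsCoc (G.map (MulAut.conj g₀).toMonoidHom) (conjCocVM g₀ G f) := by
  refine ⟨fun g => trace_tw_eq_zero_vm _ (hf.1 _), fun g h => ?_⟩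
  unfold Fermat.Agent.S56.V.conjCocVM
  have h1 : (⟨g₀⁻¹ * ((g * h : G.map (MulAut.conj g₀).toMonoidHom) : GL (Fin 2) k) * g₀,
      (mem_map_conj_iff_vm g₀ G).1 (g * h).2⟩ : G) =
      ⟨g₀⁻¹ * g * g₀, (mem_map_conj_iff_vm g₀ G).1 g.2⟩ *
        ⟨g₀⁻¹ * h * g₀, (mem_map_conj_iff_vm g₀ G).1 h.2⟩ := by
    apply Subtype.ext
    show g₀⁻¹ * ((g : GL (Fin 2) k) * h) * g₀ = (g₀⁻¹ * g * g₀) * (g₀⁻¹ * h * g₀)
    group
  rw [h1, hf.2, tw_add_vm, ← tw_mul_vm, ← tw_mul_vm]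
  congr 2
  show g₀ * (g₀⁻¹ * (g : GL (Fin 2) k) * g₀) = g * g₀
  group

theorem IsCob.of_conjCoc_vm {f : G → Matrix (Fin 2) (Fin 2) k}
    (h : IsCob (G.map (MulAut.conj g₀).toMonoidHom) (conjCocVM g₀ G f)) : IsCob G f := by
  obtain ⟨m', hm', h'⟩ := h
  refine ⟨tw g₀⁻¹ m', trace_tw_eq_zero_vm _ hm', fun g => ?_⟩
  have h1 := h' ⟨g₀ * g * g₀⁻¹, conj_mem_map_vm g₀ G g.2⟩
  unfold conjCocVM at h1
  have h2 : (⟨g₀⁻¹ * (g₀ * (g : GL (Fin 2) k) * g₀⁻¹) * g₀,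
      (mem_map_conj_iff_vm g₀ G).1 (conj_mem_map_vm g₀ G g.2)⟩ : G) = g := by
    apply Subtype.ext
    show g₀⁻¹ * (g₀ * (g : GL (Fin 2) k) * g₀⁻¹) * g₀ = g
    group
  simp only [h2] at h1
  have h3 := congrArg (tw g₀⁻¹) h1
  rw [← tw_mul_vm, inv_mul_cancel, tw_one_vm, tw_sub_vm, ← tw_mul_vm] at h3
  rw [h3, ← tw_mul_vm]
  congr 2
  group

theorem charpoly_conj_eq_vm (g₀ g : GL (Fin 2) k) :
    ((g₀ * g * g₀⁻¹ : GL (Fin 2) k) : Matrix (Fin 2) (Fin 2) k).charpoly =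
      (g : Matrix (Fin 2) (Fin 2) k).charpoly := by
  rw [Units.val_mul, Matrix.charpoly_mul_comm, ← Units.val_mul, ← mul_assoc, inv_mul_cancel,
    one_mul]

theorem Split.conj_vm (h : Split G) : Split (G.map (MulAut.conj g₀).toMonoidHom) := by
  intro g' hg'
  obtain ⟨g, hg, rfl⟩ := hg'
  obtain ⟨α, β, hαβ⟩ := h g hg
  refine ⟨α, β, ?_⟩
  rw [← hαβ]
  exact charpoly_conj_eq_vm g₀ g

theorem NoLine.conj_vm (h : NoLine G) : NoLine (G.map (MulAut.conj g₀).toMonoidHom) := by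
  intro v hv
  have hgg : ((g₀⁻¹ : GL (Fin 2) k) : Matrix (Fin 2) (Fin 2) k) * (g₀ : Matrix (Fin 2) (Fin 2) k) = 1 := by
    rw [← Units.val_mul, inv_mul_cancel, Units.val_one]
  have hgg' : (g₀ : Matrix (Fin 2) (Fin 2) k) * ((g₀⁻¹ : GL (Fin 2) k) : Matrix (Fin 2) (Fin 2) k) = 1 := by
    rw [← Units.val_mul, mul_inv_cancel, Units.val_one]
  set w : Fin 2 → k := ((g₀⁻¹ : GL (Fin 2) k) : Matrix (Fin 2) (Fin 2) k).mulVec v with hw
  have hvw : v = (g₀ : Matrix (Fin 2) (Fin 2) k).mulVec w := by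
    rw [hw, Matrix.mulVec_mulVec, hgg', Matrix.one_mulVec]
  have hw0 : w ≠ 0 := by
    intro h0
    apply hv
    rw [hvw, h0, Matrix.mulVec_zero]
  obtain ⟨g, hg, hgw⟩ := h w hw0
  refine ⟨_, conj_mem_map_vm g₀ G hg, fun c hc => hgw c ?_⟩
  have h1 : ((g₀ * g * g₀⁻¹ : GL (Fin 2) k) : Matrix (Fin 2) (Fin 2) k).mulVec v =
      (g₀ : Matrix (Fin 2) (Fin 2) k).mulVec ((g : Matrix (Fin 2) (Fin 2) k).mulVec w) := by
    rw [hw, Units.val_mul, Units.val_mul, Matrix.mulVec_mulVec, Matrix.mulVec_mulVec]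
  rw [h1] at hc
  have h2 := congrArg (((g₀⁻¹ : GL (Fin 2) k) : Matrix (Fin 2) (Fin 2) k).mulVec) hc
  rw [Matrix.mulVec_mulVec, hgg, Matrix.one_mulVec, Matrix.mulVec_smul] at h2
  exact h2

end conj

/-- restriction of a cocycle -/
theorem IsCoc.restrict_vm {k : Type} [Field k] {G T : Subgroup (GL (Fin 2) k)} (hTG : T ≤ G)
    {f : G → Matrix (Fin 2) (Fin 2) k} (hf : IsCoc G f) :
    IsCoc T (fun t => f ⟨t, hTG t.2⟩) :=
  ⟨fun _ => hf.1 _, fun t t' => hf.2 ⟨t, hTG t.2⟩ ⟨t', hTG t'.2⟩⟩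

/-- **(V)** -/
theorem isCob_of_isCoc {k : Type} [Field k] [Finite k] {p : ℕ} [Fact p.Prime] [CharP k p] (hp2 : p ≠ 2)
    (G : Subgroup (GL (Fin 2) k)) (hsplit : Split G) (hirr : NoLine G)
    (hdet : ∀ a : ℕ, ¬ p ∣ a → ∃ g ∈ G, (g : Matrix (Fin 2) (Fin 2) k).det = (a : k))
    (f : G → Matrix (Fin 2) (Fin 2) k) (hf : IsCoc G f) : IsCob G f := by
  by_cases hpG : p ∣ Nat.card G
  swap
  · exact isCob_of_card_coprime_vm (p := p) G hpG f hf
  obtain ⟨g₀, P, T, hPG, hTG, hP, hX, hPidx, hTcard, hTdiag, hratio, hTdet⟩ :=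
    exists_normal_form (p := p) G hpG
  refine IsCob.of_conjCoc_vm g₀ G ?_
  set G' := G.map (MulAut.conj g₀).toMonoidHom with hG'
  set f' := conjCocVM g₀ G f with hf'
  have hc' : IsCoc G' f' := hf.conjCocVM g₀ G
  -- kill the cocycle on `T`
  obtain ⟨m₀, hm₀, hT0⟩ := isCob_of_card_coprime_vm (p := p) T hTcard _ (hc'.restrict_vm hTG)
  refine IsCob.of_sub_cob_vm hm₀ ?_
  set f'' : G' → Matrix (Fin 2) (Fin 2) k := fun g => f' g - (tw (g : GL (Fin 2) k) m₀ - m₀) with hf''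
  have hc'' : IsCoc G' f'' := hc'.sub_cob_vm hm₀
  have hfT : ∀ g : G', (g : GL (Fin 2) k) ∈ T → f'' g = 0 := by
    intro g hg
    have := hT0 ⟨g, hg⟩
    show f' g - (tw (g : GL (Fin 2) k) m₀ - m₀) = 0
    rw [sub_eq_zero]
    exact this
  -- the determinant conditions
  have hp2' : ¬ p ∣ 2 := fun h => hp2 ((Nat.prime_dvd_prime_iff_eq Fact.out Nat.prime_two).1 h)
  obtain ⟨g2, hg2, hg2det⟩ := hdet 2 hp2'
  obtain ⟨t2, ht2, ht2det⟩ := hTdet g2 hg2
  have ht2' : (t2 : Matrix (Fin 2) (Fin 2) k).det = 2 := by rw [ht2det, hg2det]; norm_num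
  have hd1 : ∃ t ∈ T, (t : Matrix (Fin 2) (Fin 2) k).det ≠ 1 := by
    refine ⟨t2, ht2, ?_⟩
    rw [ht2']
    intro h
    have : (1 : k) = 0 := by linear_combination h
    exact one_ne_zero this
  have hd5 : p = 5 → ∃ t ∈ T, (t : Matrix (Fin 2) (Fin 2) k).det ^ 2 ≠ 1 := by
    intro h5
    refine ⟨t2, ht2, ?_⟩
    rw [ht2']
    intro h
    have h3 : ((3 : ℕ) : k) = 0 := by push_cast; linear_combination h
    rw [CharP.cast_eq_zero_iff k p 3, h5] at h3
    omega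
  have hcount : Nat.card (unipSet G') - 1 ≤ 2 * Nat.card (ratioSet T) := by
    rw [← hratio]
    exact card_unipSet_le (p := p) hp2 G' (hsplit.conj_vm g₀ G) (hirr.conj_vm g₀ G) hX
  obtain ⟨m, hm, hmP⟩ := isCob_unip (p := p) hp2 G' T hTG hTdiag hd1 hd5 hcount f'' hc'' hfT
  exact isCob_of_index_coprime (p := p) G' P hPG hPidx f'' hc''
    ⟨m, hm, fun g hg => hmP g ((hP _).1 hg).2⟩

end Fermat.Agent.S56.V
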