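import Fermat.Agent.S56.V.Defs
import Fermat.Agent.S56.V.Count.Fix

/-!
# S56 / V-COUNT  (Mathlib only).  The Dickson class equation, in the only form we need.

THEOREM.  `k` finite field of char `p` (odd), `G ≤ GL₂(k)`, all elements split over `k`, no `G`-stable line,
`X = {x | u_x ∈ G} ≠ {0}`, `q = #X`, `e = #{a/d | (a b; 0 d) ∈ G, ad = 1}`.  Then `q - 1 ≤ 2 e`.

PAPER PROOF.  Replace `G` by `Γ = G ∩ SL₂(k)` (same `X`, same ratio set; still no stable line: the lines fixed by the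
conjugates `g u_x g⁻¹ ∈ Γ` are `g·∞`, and a `Γ`-stable line must be the unique fixed line of each of them, so it would be
`g·∞` for all `g ∈ G`, i.e. `∞` would be `G`-stable).  `Z = Γ ∩ {±1}`, `z = #Z`, `gb = #Γ / z`.  `Γ` acts on `Ω = P¹(k)`
(`OnePoint k` with Mathlib's Moebius action, or lines in `k²`).
(1) `g ∈ Γ \ Z` has eigenvalues `a, a⁻¹ ∈ k`: if `a ≠ a⁻¹` exactly 2 fixed points; if `a = a⁻¹ = ±1`, `g = ± unipotent ≠ ±1`:
    exactly 1 fixed point.  `U` := the second kind.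
(2) `P = {u_x ∈ Γ}` is a Sylow `p`-subgroup of `Γ` (a `p`-subgroup of `GL₂(k)` fixes a nonzero vector; a `p`-group `P' ⊇ P ≠ 1` fixes
    a vector which must lie on `∞`).  `B = Stab_Γ(∞) = {(a b; 0 a⁻¹)}`; `B → kˣ`, `g ↦ a² = a/d` has kernel `Z P` (if `-u_x ∈ Γ` then
    `(-u_x)^p = -1 ∈ Γ`), so `#B = z q e`.
(3) `𝓛` := orbit of `∞`.  Every `u ∈ U` fixes a unique point, which lies in `𝓛` (`u² ` or `±u` is unipotent `≠ 1`, lies in a conjugate of `P`);
    every point of `𝓛` is fixed by exactly `z (q-1)` elements of `U`.  `P` acts freely on `𝓛 \ {∞}`: `#𝓛 = 1 + m q`, `m ≥ 1` (no stable line).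
(4) count pairs `(g, ω)`, `g ∈ Γ \ Z`, `g ω = ω` and divide by `z`:
      `∑_ω (#Stab ω / z - 1) = #U/z + 2 (gb - 1 - #U/z) = 2 gb - 2 - #𝓛 (q-1)`,  and  `∑_{ω ∈ 𝓛} = #𝓛 (q e - 1) = gb - #𝓛`.  So
      `∑_{ω ∉ 𝓛} (#Stab ω / z - 1) = gb - 2 - #𝓛 (q - 2) < gb`.
(5) an orbit `O ⊄ 𝓛` with `#Stab/z = a ≥ 2` contributes `gb - gb/a ≥ gb/2`: at most one such orbit.  None: `gb = 2 + #𝓛 (q-2)`, but
    `gb = #𝓛 q e ≥ #𝓛 q`, so `#𝓛 ≤ 1`: contradiction.  Exactly one: `gb / a = 2 + #𝓛 (q-2) = q (1 + m (q-2))`.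
(6) so `D := 1 + m (q-2)` divides `(1 + m q) e = (D + 2m) e`, hence `D ∣ 2 m e`, and `gcd(D, m) = 1`: `D ∣ 2 e`.  `q - 1 ≤ D ≤ 2 e`.
It is convenient to isolate (4)-(6) as an abstract lemma on a finite group acting on a finite set.
-/

set_option autoImplicit false

namespace Fermat.Agent.S56.V

open Matrix

theorem card_unipSet_le {k : Type} [Field k] [Finite k] {p : ℕ} [Fact p.Prime] [CharP k p] (hp2 : p ≠ 2)
    (G : Subgroup (GL (Fin 2) k)) (hsplit : Split G) (hirr : NoLine G)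
    (hX : ∃ x ∈ unipSet G, x ≠ 0) :
    Nat.card (unipSet G) - 1 ≤ 2 * Nat.card (ratioSet G) := by
  classical
  have h2 : NeZero (2 : k) := by
    refine ⟨fun h => hp2 ?_⟩
    have h' : ((2 : ℕ) : k) = 0 := by exact_mod_cast h
    rw [CharP.cast_eq_zero_iff k p 2] at h'
    exact (Nat.prime_dvd_prime_iff_eq Fact.out Nat.prime_two).1 h'
  set Γ : Subgroup (GL (Fin 2) k) := G ⊓ (GeneralLinearGroup.det (n := Fin 2) (R := k)).ker with hΓ
  have hmemΓ : ∀ g : GL (Fin 2) k, g ∈ Γ ↔ g ∈ G ∧ g.val.det = 1 := by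
    intro g
    rw [hΓ, Subgroup.mem_inf, MonoidHom.mem_ker, Units.ext_iff, GeneralLinearGroup.val_det_apply,
      Units.val_one]
  have hsp : ∀ g ∈ Γ, ∃ s : k, g.val.discr = s * s := by
    intro g hg
    obtain ⟨α, β, hαβ⟩ := hsplit g ((hmemΓ g).1 hg).1
    rw [Matrix.charpoly_fin_two] at hαβ
    have e0 := congrArg (Polynomial.eval 0) hαβ
    have e1 := congrArg (Polynomial.eval 1) hαβ
    simp at e0 e1
    refine ⟨α - β, ?_⟩
    rw [discr_fin_two]
    have ht : g.val.trace = α + β := by linear_combination e0 - e1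
    rw [ht, e0]; ring
  have hXΓ : ∀ x ∈ unipSet G, (GeneralLinearGroup.upperRightHom x : GL (Fin 2) k) ∈ Γ := by
    intro x hx
    obtain ⟨g, hg, hgx⟩ := hx
    have : g = GeneralLinearGroup.upperRightHom x := Units.ext (by rw [hgx]; rfl)
    rw [← this, hmemΓ]
    refine ⟨hg, ?_⟩
    rw [hgx, uMat, det_fin_two_of]; ring
  obtain ⟨x₀, hx₀, hx₀'⟩ := hX
  have hmove : ∃ g ∈ Γ, g 1 0 ≠ 0 := by
    obtain ⟨g, hg, hgv⟩ := hirr ![1, 0] (by simp)
    have hg10 : g 1 0 ≠ 0 := by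
      intro h
      apply hgv (g 0 0)
      ext i
      fin_cases i <;> simp [h]
    have hu := hXΓ x₀ hx₀
    refine ⟨g * GeneralLinearGroup.upperRightHom x₀ * g⁻¹, ?_, ?_⟩
    · rw [hΓ, Subgroup.mem_inf]
      rw [hΓ, Subgroup.mem_inf] at hu
      exact ⟨G.mul_mem (G.mul_mem hg hu.1) (G.inv_mem hg),
        (MonoidHom.normal_ker _).conj_mem _ hu.2 g⟩
    · intro h
      rw [← OnePoint.smul_infty_eq_self_iff, mul_smul, mul_smul, smul_eq_iff_eq_inv_smul,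
        Count.upperRight_fix x₀ hx₀', inv_smul_eq_iff, eq_comm, OnePoint.smul_infty_eq_self_iff] at h
      exact hg10 h
  have hcard : Nat.card (Count.ratioHom Γ).range = Nat.card (ratioSet G) := by
    have : ratioSet G = (fun u : kˣ => (u : k)) '' ((Count.ratioHom Γ).range : Set kˣ) := by
      ext r
      simp only [ratioSet, Set.mem_ofPred_eq, Set.mem_image, SetLike.mem_coe, MonoidHom.mem_range]
      constructor
      · rintro ⟨g, hg, h10, hdet, rfl⟩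
        exact ⟨_, ⟨⟨⟨g, (hmemΓ g).2 ⟨hg, hdet⟩⟩, (Count.stab_iff Γ _).2 h10⟩, rfl⟩, rfl⟩
      · rintro ⟨_, ⟨g, rfl⟩, rfl⟩
        exact ⟨g.1.1, ((hmemΓ _).1 g.1.2).1, (Count.stab_iff Γ _).1 g.2, ((hmemΓ _).1 g.1.2).2, rfl⟩
    rw [this, Nat.card_image_of_injective Units.val_injective]
    rfl
  have := Count.card_le_of Γ p hsp (unipSet G) hXΓ x₀ hx₀ hx₀' hmove
  rw [hcard] at this
  omega

end Fermat.Agent.S56.V
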