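import Mathlib

/-!
# S56 / V : vanishing of `H¹(G, ad⁰ ⊗ det)` for `G ≤ GL₂(k)`.  Definitions.

`k` a finite field of odd characteristic `p`, `G ≤ GL₂(k)`.  `M = sl₂(k)` (trace zero matrices) with the
TWISTED adjoint action `g • m = det g • (g m g⁻¹)`.
-/

set_option autoImplicit false

namespace Fermat.Agent.S56.V

open Matrix

variable {k : Type} [Field k]

/-- the twisted adjoint action `g • m = det g • (g m g⁻¹)` on all `2 × 2` matrices -/
noncomputable def tw (g : GL (Fin 2) k) (m : Matrix (Fin 2) (Fin 2) k) : Matrix (Fin 2) (Fin 2) k :=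
  (g : Matrix (Fin 2) (Fin 2) k).det • ((g : Matrix (Fin 2) (Fin 2) k) * m *
    ((g⁻¹ : GL (Fin 2) k) : Matrix (Fin 2) (Fin 2) k))

/-- `f : G → sl₂(k)` is a 1-cocycle for the twisted adjoint action -/
def IsCoc (G : Subgroup (GL (Fin 2) k)) (f : G → Matrix (Fin 2) (Fin 2) k) : Prop :=
  (∀ g, (f g).trace = 0) ∧ ∀ g h : G, f (g * h) = f g + tw (g : GL (Fin 2) k) (f h)

/-- `f` is a coboundary -/
def IsCob (G : Subgroup (GL (Fin 2) k)) (f : G → Matrix (Fin 2) (Fin 2) k) : Prop :=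
  ∃ m : Matrix (Fin 2) (Fin 2) k, m.trace = 0 ∧ ∀ g : G, f g = tw (g : GL (Fin 2) k) m - m

/-- no `G`-stable line in `k²` -/
def NoLine (G : Subgroup (GL (Fin 2) k)) : Prop :=
  ∀ v : Fin 2 → k, v ≠ 0 → ∃ g ∈ G, ∀ c : k, (g : Matrix (Fin 2) (Fin 2) k).mulVec v ≠ c • v

/-- every element of `G` has its eigenvalues in `k` -/
def Split (G : Subgroup (GL (Fin 2) k)) : Prop :=
  ∀ g ∈ G, ∃ α β : k, (g : Matrix (Fin 2) (Fin 2) k).charpoly =
    (Polynomial.X - Polynomial.C α) * (Polynomial.X - Polynomial.C β)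

/-- the upper unitriangular matrix `u_x` -/
def uMat (x : k) : Matrix (Fin 2) (Fin 2) k := !![1, x; 0, 1]

/-- `X(G) = {x | u_x ∈ G}` -/
def unipSet (G : Subgroup (GL (Fin 2) k)) : Set k :=
  {x | ∃ g ∈ G, (g : Matrix (Fin 2) (Fin 2) k) = uMat x}

/-- `α(B₁) = {a / d | (a b; 0 d) ∈ G, a d = 1}` -/
def ratioSet (G : Subgroup (GL (Fin 2) k)) : Set k :=
  {r | ∃ g ∈ G, (g : Matrix (Fin 2) (Fin 2) k) 1 0 = 0 ∧ (g : Matrix (Fin 2) (Fin 2) k).det = 1 ∧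
    r = (g : Matrix (Fin 2) (Fin 2) k) 0 0 / (g : Matrix (Fin 2) (Fin 2) k) 1 1}

end Fermat.Agent.S56.V
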